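/-
S55 / block CYC (owner helper241): Herbrand quotients of pairs of endomorphisms.
Definitions only.  Everything is unbundled: an abelian group `A` and additive endomorphisms.

* `ind f g   = [ker f : im g ∩ ker f]`  (a natural number, `0` if the index is infinite)
* `QDef f g` : both `ind f g` and `ind g f` are finite (nonzero)
* `q f g     = ind f g / ind g f : ℚ`   (the `q_{f,g}(A)` of Artin-Tate / Lang)
* `dOp s = s - 1`, `nOp n s = 1 + s + ... + s^(n-1)`, `herb n s = q (dOp s) (nOp n s)`
  (`= |Ĥ⁰| / |H¹|` for the cyclic group of order `n` generated by `s`)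
* `phi p A = q 0 p = [A : pA] / |A[p]|`.
-/
import Mathlib

set_option autoImplicit false

namespace Fermat.Agent.S55.Cyc

variable {A : Type*} [AddCommGroup A]

/-- `[ker f : im g ∩ ker f]`, `0` if infinite. -/
noncomputable def ind (f g : A →+ A) : ℕ := g.range.relIndex f.ker

/-- Both indices of the pair `(f, g)` are finite. -/
def QDef (f g : A →+ A) : Prop := ind f g ≠ 0 ∧ ind g f ≠ 0

/-- The Herbrand quotient `q_{f,g}(A) = [ker f : im g] / [ker g : im f]`. -/
noncomputable def q (f g : A →+ A) : ℚ := (ind f g : ℚ) / (ind g f : ℚ)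

/-- `s - 1`. -/
def dOp (s : A →+ A) : A →+ A := s - AddMonoidHom.id A

/-- `1 + s + ... + s^(n-1)`. -/
def nOp (n : ℕ) (s : A →+ A) : A →+ A where
  toFun a := ∑ i ∈ Finset.range n, s^[i] a
  map_zero' := by simp [iterate_map_zero]
  map_add' a b := by simp [iterate_map_add, Finset.sum_add_distrib]

/-- Multiplication by the natural number `p`. -/
def mulOp (A : Type*) [AddCommGroup A] (p : ℕ) : A →+ A := nsmulAddMonoidHom p

@[simp] theorem dOp_apply (s : A →+ A) (a : A) : dOp s a = s a - a := rfl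

@[simp] theorem nOp_apply (n : ℕ) (s : A →+ A) (a : A) :
    nOp n s a = ∑ i ∈ Finset.range n, s^[i] a := rfl

@[simp] theorem mulOp_apply (p : ℕ) (a : A) : mulOp A p a = p • a := rfl

/-- The Herbrand quotient of the cyclic group generated by `s` (`s^n = 1`):
`|ker (s-1) / im N| / |ker N / im (s-1)|`. -/
noncomputable def herb (n : ℕ) (s : A →+ A) : ℚ := q (dOp s) (nOp n s)

/-- Finiteness of both cohomology groups of the cyclic group generated by `s`. -/
def HerbDef (n : ℕ) (s : A →+ A) : Prop := QDef (dOp s) (nOp n s)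

/-- `[A : pA] / |A[p]|`. -/
noncomputable def phi (A : Type*) [AddCommGroup A] (p : ℕ) : ℚ := q (0 : A →+ A) (mulOp A p)

/-- `A / pA` and `A[p]` are finite. -/
def PhiDef (A : Type*) [AddCommGroup A] (p : ℕ) : Prop := QDef (0 : A →+ A) (mulOp A p)

theorem QDef.symm {f g : A →+ A} (h : QDef f g) : QDef g f := ⟨h.2, h.1⟩

theorem q_symm (f g : A →+ A) : q g f = (q f g)⁻¹ := by
  simp [q, inv_div]

theorem QDef.q_ne_zero {f g : A →+ A} (h : QDef f g) : q f g ≠ 0 := by
  unfold q
  exact div_ne_zero (Nat.cast_ne_zero.2 h.1) (Nat.cast_ne_zero.2 h.2)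

theorem QDef.q_pos {f g : A →+ A} (h : QDef f g) : 0 < q f g := by
  unfold q
  exact div_pos (Nat.cast_pos.2 (Nat.pos_of_ne_zero h.1)) (Nat.cast_pos.2 (Nat.pos_of_ne_zero h.2))

end Fermat.Agent.S55.Cyc
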