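/-
S55 / block CYC (owner helper241): multiplicativity of the Herbrand quotient `q_{f,g}` in short
exact sequences, by pure index calculus in the lattice of subgroups of the middle term.

Main results (for `0 → A → B → C → 0` compatible with `(fA,gA)`, `(fB,gB)`, `(fC,gC)`,
`fB ∘ gB = gB ∘ fB = 0`):
* `exists_six` : the six indices are `af*bf, bf*cf, cf*ag, ag*bg, bg*cg, cg*af`
* `QDef.mid`, `QDef.sub`, `QDef.quot` : two out of three
* `q_mid` : `q fB gB = q fA gA * q fC gC`.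
-/
import Fermat.Agent.S55.Cyc.Defs

set_option autoImplicit false

namespace Fermat.Agent.S55.Cyc

section core

variable {B : Type*} [AddCommGroup B]

/-- `[gB ∩ A : gA]`. -/
noncomputable def aIdx (g : B →+ B) (A : AddSubgroup B) : ℕ := (A.map g).relIndex (g.range ⊓ A)

/-- `[ker f ∩ A : gB ∩ A]`. -/
noncomputable def bIdx (f g : B →+ B) (A : AddSubgroup B) : ℕ :=
  (g.range ⊓ A).relIndex (f.ker ⊓ A)

/-- `[ker f : (ker f ∩ A) + gB]`. -/
noncomputable def cIdx (f g : B →+ B) (A : AddSubgroup B) : ℕ :=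
  ((f.ker ⊓ A) ⊔ g.range).relIndex f.ker

variable (f g : B →+ B) (hfg : ∀ b, f (g b) = 0) (A : AddSubgroup B)

include hfg in
theorem range_le_ker : g.range ≤ f.ker := by
  rintro _ ⟨b, rfl⟩
  exact hfg b

include hfg in
theorem relIndex_sub_eq (hgA : A.map g ≤ A) :
    (A.map g).relIndex (f.ker ⊓ A) = aIdx g A * bIdx f g A := by
  unfold aIdx bIdx
  rw [AddSubgroup.relIndex_mul_relIndex]
  · exact le_inf (AddSubgroup.map_le_range g A) hgA
  · exact inf_le_inf_right A (range_le_ker f g hfg)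

include hfg in
theorem ind_mid_eq : ind f g = bIdx f g A * cIdx f g A := by
  unfold ind bIdx cIdx
  have h1 : g.range ≤ f.ker := range_le_ker f g hfg
  rw [← AddSubgroup.relIndex_mul_relIndex (H := g.range) (K := (f.ker ⊓ A) ⊔ g.range) (L := f.ker)
    le_sup_right (sup_le inf_le_left h1)]
  congr 1
  rw [AddSubgroup.relIndex_sup_right, ← AddSubgroup.inf_relIndex_right]
  congr 1
  rw [← inf_assoc, inf_eq_left.2 h1]

include hfg in
theorem relIndex_quot_eq (hfA : A.map f ≤ A) :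
    (g.range ⊔ A).relIndex (A.comap f) = cIdx f g A * aIdx f A := by
  have h1 : g.range ≤ f.ker := range_le_ker f g hfg
  have hk : f.ker ≤ A.comap f := by
    intro x hx
    rw [AddSubgroup.mem_comap, (AddMonoidHom.mem_ker).1 hx]
    exact A.zero_mem
  have hA : A ≤ A.comap f := AddSubgroup.map_le_iff_le_comap.1 hfA
  rw [← AddSubgroup.relIndex_mul_relIndex (H := g.range ⊔ A) (K := f.ker ⊔ A) (L := A.comap f)
    (sup_le_sup_right h1 A) (sup_le hk hA)]
  congr 1
  · unfold cIdx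
    have e1 : f.ker ⊔ A = f.ker ⊔ (g.range ⊔ A) := by
      rw [← sup_assoc, sup_eq_left.2 h1]
    rw [e1, AddSubgroup.relIndex_sup_right, ← AddSubgroup.inf_relIndex_right]
    congr 1
    rw [sup_inf_assoc_of_le A h1, sup_comm, inf_comm]
  · unfold aIdx
    have := AddSubgroup.relIndex_map_map f A (A.comap f)
    rw [AddSubgroup.map_comap_eq, sup_eq_left.2 hk, sup_comm] at this
    rw [this]

end core

section transport

variable {A B C : Type*} [AddCommGroup A] [AddCommGroup B] [AddCommGroup C]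

/-- Transport of `ind` along an injective compatible map. -/
theorem ind_eq_of_injective (i : A →+ B) (hi : Function.Injective i)
    (fA gA : A →+ A) (fB gB : B →+ B)
    (hfi : ∀ a, i (fA a) = fB (i a)) (hgi : ∀ a, i (gA a) = gB (i a)) :
    ind fA gA = (i.range.map gB).relIndex (fB.ker ⊓ i.range) := by
  unfold ind
  rw [← AddSubgroup.relIndex_map_map_of_injective gA.range fA.ker hi]
  congr 1
  · ext x
    constructor
    · rintro ⟨_, ⟨a, rfl⟩, rfl⟩
      exact ⟨i a, ⟨a, rfl⟩, (hgi a).symm⟩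
    · rintro ⟨_, ⟨a, rfl⟩, rfl⟩
      exact ⟨gA a, ⟨a, rfl⟩, hgi a⟩
  · ext x
    constructor
    · rintro ⟨a, ha, rfl⟩
      refine ⟨?_, ⟨a, rfl⟩⟩
      have ha' : fA a = 0 := ha
      show fB (i a) = 0
      rw [← hfi, ha', map_zero]
    · rintro ⟨hx, ⟨a, rfl⟩⟩
      refine ⟨a, ?_, rfl⟩
      have hx' : fB (i a) = 0 := hx
      show fA a = 0
      apply hi
      rw [hfi, hx', map_zero]

/-- Transport of `ind` along a surjective compatible map. -/
theorem ind_eq_of_surjective (π : B →+ C) (hπ : Function.Surjective π)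
    (fB gB : B →+ B) (fC gC : C →+ C)
    (hfπ : ∀ b, π (fB b) = fC (π b)) (hgπ : ∀ b, π (gB b) = gC (π b)) :
    ind fC gC = (gB.range ⊔ π.ker).relIndex (π.ker.comap fB) := by
  unfold ind
  have h := AddSubgroup.relIndex_comap (H := gC.range) π (fC.ker.comap π)
  rw [AddSubgroup.map_comap_eq_self_of_surjective hπ] at h
  rw [← h]
  congr 1
  · ext x
    rw [AddSubgroup.mem_comap, AddSubgroup.mem_sup]
    constructor
    · rintro ⟨c, hc⟩
      obtain ⟨b, rfl⟩ := hπ c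
      refine ⟨gB b, ⟨b, rfl⟩, x - gB b, ?_, by abel⟩
      show π (x - gB b) = 0
      rw [map_sub, hgπ, hc, sub_self]
    · rintro ⟨_, ⟨b, rfl⟩, z, hz, rfl⟩
      have hz' : π z = 0 := hz
      exact ⟨π b, by rw [map_add, hz', add_zero, hgπ]⟩
  · ext x
    simp only [AddSubgroup.mem_comap, AddMonoidHom.mem_ker, hfπ]

end transport

section exact

variable {A B C : Type*} [AddCommGroup A] [AddCommGroup B] [AddCommGroup C]
  (i : A →+ B) (π : B →+ C) (hi : Function.Injective i) (hπ : Function.Surjective π)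
  (hex : i.range = π.ker)
  (fA gA : A →+ A) (fB gB : B →+ B) (fC gC : C →+ C)
  (hfi : ∀ a, i (fA a) = fB (i a)) (hgi : ∀ a, i (gA a) = gB (i a))
  (hfπ : ∀ b, π (fB b) = fC (π b)) (hgπ : ∀ b, π (gB b) = gC (π b))
  (hfg : ∀ b, fB (gB b) = 0) (hgf : ∀ b, gB (fB b) = 0)

include hi hπ hex hfi hgi hfπ hgπ hfg hgf in
/-- The six indices of a short exact sequence factor through six numbers arranged in a hexagon. -/
theorem exists_six : ∃ af bf cf ag bg cg : ℕ,
    ind fA gA = af * bf ∧ ind fB gB = bf * cf ∧ ind fC gC = cf * ag ∧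
    ind gA fA = ag * bg ∧ ind gB fB = bg * cg ∧ ind gC fC = cg * af := by
  have hstab : ∀ (hA : A →+ A) (hB : B →+ B), (∀ a, i (hA a) = hB (i a)) →
      i.range.map hB ≤ i.range := by
    rintro hA hB h _ ⟨_, ⟨a, rfl⟩, rfl⟩
    exact ⟨hA a, h a⟩
  refine ⟨aIdx gB i.range, bIdx fB gB i.range, cIdx fB gB i.range,
    aIdx fB i.range, bIdx gB fB i.range, cIdx gB fB i.range, ?_, ?_, ?_, ?_, ?_, ?_⟩
  · rw [ind_eq_of_injective i hi fA gA fB gB hfi hgi]
    exact relIndex_sub_eq fB gB hfg _ (hstab gA gB hgi)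
  · exact ind_mid_eq fB gB hfg _
  · rw [ind_eq_of_surjective π hπ fB gB fC gC hfπ hgπ, ← hex]
    exact relIndex_quot_eq fB gB hfg _ (hstab fA fB hfi)
  · rw [ind_eq_of_injective i hi gA fA gB fB hgi hfi]
    exact relIndex_sub_eq gB fB hgf _ (hstab fA fB hfi)
  · exact ind_mid_eq gB fB hgf _
  · rw [ind_eq_of_surjective π hπ gB fB gC fC hgπ hfπ, ← hex]
    exact relIndex_quot_eq gB fB hgf _ (hstab gA gB hgi)

include hi hπ hex hfi hgi hfπ hgπ hfg hgf in
theorem QDef.mid (hA : QDef fA gA) (hC : QDef fC gC) : QDef fB gB := by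
  obtain ⟨af, bf, cf, ag, bg, cg, h1, h2, h3, h4, h5, h6⟩ :=
    exists_six i π hi hπ hex fA gA fB gB fC gC hfi hgi hfπ hgπ hfg hgf
  unfold QDef at *
  rw [h1, h4] at hA
  rw [h3, h6] at hC
  rw [h2, h5]
  simp only [ne_eq, mul_eq_zero, not_or] at *
  tauto

include hi hπ hex hfi hgi hfπ hgπ hfg hgf in
theorem QDef.sub (hB : QDef fB gB) (hC : QDef fC gC) : QDef fA gA := by
  obtain ⟨af, bf, cf, ag, bg, cg, h1, h2, h3, h4, h5, h6⟩ :=
    exists_six i π hi hπ hex fA gA fB gB fC gC hfi hgi hfπ hgπ hfg hgf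
  unfold QDef at *
  rw [h2, h5] at hB
  rw [h3, h6] at hC
  rw [h1, h4]
  simp only [ne_eq, mul_eq_zero, not_or] at *
  tauto

include hi hπ hex hfi hgi hfπ hgπ hfg hgf in
theorem QDef.quot (hA : QDef fA gA) (hB : QDef fB gB) : QDef fC gC := by
  obtain ⟨af, bf, cf, ag, bg, cg, h1, h2, h3, h4, h5, h6⟩ :=
    exists_six i π hi hπ hex fA gA fB gB fC gC hfi hgi hfπ hgπ hfg hgf
  unfold QDef at *
  rw [h1, h4] at hA
  rw [h2, h5] at hB
  rw [h3, h6]
  simp only [ne_eq, mul_eq_zero, not_or] at *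
  tauto

include hi hπ hex hfi hgi hfπ hgπ hfg hgf in
/-- Multiplicativity of the Herbrand quotient. -/
theorem q_mid (hA : QDef fA gA) (hC : QDef fC gC) : q fB gB = q fA gA * q fC gC := by
  obtain ⟨af, bf, cf, ag, bg, cg, h1, h2, h3, h4, h5, h6⟩ :=
    exists_six i π hi hπ hex fA gA fB gB fC gC hfi hgi hfπ hgπ hfg hgf
  unfold QDef at *
  rw [h1, h4] at hA
  rw [h3, h6] at hC
  unfold q
  rw [h1, h2, h3, h4, h5, h6]
  simp only [ne_eq, mul_eq_zero, not_or] at hA hC
  obtain ⟨⟨a1, a2⟩, a3, a4⟩ := hA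
  obtain ⟨⟨c1, c2⟩, c3, c4⟩ := hC
  have : (af : ℚ) ≠ 0 := Nat.cast_ne_zero.2 a1
  have : (bf : ℚ) ≠ 0 := Nat.cast_ne_zero.2 a2
  have : (ag : ℚ) ≠ 0 := Nat.cast_ne_zero.2 a3
  have : (bg : ℚ) ≠ 0 := Nat.cast_ne_zero.2 a4
  have : (cf : ℚ) ≠ 0 := Nat.cast_ne_zero.2 c1
  have : (cg : ℚ) ≠ 0 := Nat.cast_ne_zero.2 c3
  push_cast
  field_simp

end exact

end Fermat.Agent.S55.Cyc
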