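/-
S55 / block CYC: the operators `D = s - 1`, `N = 1 + s + ... + s^(n-1)`; trivial action;
induced modules.
-/
import Fermat.Agent.S55.Cyc.Exact

set_option autoImplicit false

namespace Fermat.Agent.S55.Cyc

variable {A : Type*} [AddCommGroup A]

theorem dOp_nOp (n : ℕ) (s : A →+ A) (hs : ∀ a, s^[n] a = a) (a : A) : dOp s (nOp n s a) = 0 := by
  rw [dOp_apply, nOp_apply, map_sum, ← Finset.sum_sub_distrib]
  have h : ∀ i ∈ Finset.range n, s (s^[i] a) - s^[i] a = s^[i + 1] a - s^[i] a := fun i _ => by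
    rw [Function.iterate_succ_apply']
  rw [Finset.sum_congr rfl h, Finset.sum_range_sub (fun i => s^[i] a), hs]
  simp

theorem nOp_dOp (n : ℕ) (s : A →+ A) (hs : ∀ a, s^[n] a = a) (a : A) : nOp n s (dOp s a) = 0 := by
  rw [nOp_apply, dOp_apply]
  have h : ∀ i ∈ Finset.range n, s^[i] (s a - a) = s^[i + 1] a - s^[i] a := fun i _ => by
    rw [iterate_map_sub, Function.iterate_succ_apply]
  rw [Finset.sum_congr rfl h, Finset.sum_range_sub (fun i => s^[i] a), hs]
  simp

theorem dOp_id : dOp (AddMonoidHom.id A) = 0 := by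
  ext a; simp

theorem nOp_id (n : ℕ) : nOp n (AddMonoidHom.id A) = mulOp A n := by
  ext a
  have h : ∀ i : ℕ, (AddMonoidHom.id A)^[i] a = a := fun i => by
    induction i with
    | zero => rfl
    | succ i ih => rw [Function.iterate_succ_apply']; exact ih
  rw [nOp_apply, mulOp_apply, Finset.sum_congr rfl (fun i _ => h i)]
  simp

/-- Trivial action: the Herbrand quotient is `[A : nA] / |A[n]|`. -/
theorem herb_id (n : ℕ) : herb n (AddMonoidHom.id A) = phi A n := by
  unfold herb phi
  rw [dOp_id, nOp_id]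

theorem HerbDef_id (n : ℕ) : HerbDef n (AddMonoidHom.id A) ↔ PhiDef A n := by
  unfold HerbDef PhiDef
  rw [dOp_id, nOp_id]

theorem iterate_mod_of_period (n : ℕ) (s : A →+ A) (hs : ∀ a, s^[n] a = a) (m : ℕ) (z : A) :
    s^[m % n] z = s^[m] z := by
  conv_rhs => rw [← Nat.mod_add_div m n, Function.iterate_add_apply, Function.iterate_mul,
    Function.iterate_fixed (hs z)]

theorem iterate_sub_mem_range_dOp (s : A →+ A) (i : ℕ) (z : A) : s^[i] z - z ∈ (dOp s).range := by
  induction i with
  | zero => simp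
  | succ i ih =>
    have : s^[i + 1] z - z = dOp s (s^[i] z) + (s^[i] z - z) := by
      rw [Function.iterate_succ_apply', dOp_apply]; abel
    rw [this]
    exact (dOp s).range.add_mem ⟨_, rfl⟩ ih

theorem nOp_iterate (n : ℕ) (s : A →+ A) (hs : ∀ a, s^[n] a = a) (i : ℕ) (z : A) :
    nOp n s (s^[i] z) = nOp n s z := by
  obtain ⟨w, hw⟩ := iterate_sub_mem_range_dOp s i z
  have h := nOp_dOp n s hs w
  rw [hw, map_sub, sub_eq_zero] at h
  exact h

/-- Induced modules have trivial cohomology: if `A` is the internal direct sum of the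
`s^i X`, `0 ≤ i < n`, then `ker D = im N` and `ker N = im D`. -/
theorem ind_of_induced (n : ℕ) (s : A →+ A) (hs : ∀ a, s^[n] a = a) (X : AddSubgroup A)
    (hX : ∀ a : A, ∃! x : Fin n → X, a = ∑ i : Fin n, s^[(i : ℕ)] (x i : A)) :
    ind (dOp s) (nOp n s) = 1 ∧ ind (nOp n s) (dOp s) = 1 := by
  unfold ind
  rw [AddSubgroup.relIndex_eq_one, AddSubgroup.relIndex_eq_one]
  rcases n with _ | k
  · have h0 : ∀ a : A, a = 0 := by
      intro a
      obtain ⟨x, hx, -⟩ := hX a
      simpa using hx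
    constructor <;> intro a _ <;> rw [h0 a] <;> exact zero_mem _
  constructor
  · intro a ha
    have hsa : s a = a := by
      have : dOp s a = 0 := ha
      rwa [dOp_apply, sub_eq_zero] at this
    obtain ⟨x, hx, huniq⟩ := hX a
    have hshift : a = ∑ i : Fin (k + 1), s^[(i : ℕ)] ((x (i - 1) : X) : A) := by
      conv_lhs => rw [← hsa, hx, map_sum]
      rw [← Equiv.sum_comp (Equiv.addRight (1 : Fin (k + 1)))
        (fun i : Fin (k + 1) => s^[(i : ℕ)] ((x (i - 1) : X) : A))]
      refine Finset.sum_congr rfl fun j _ => ?_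
      have key : ((j + 1 : Fin (k + 1)) : ℕ) = ((j : ℕ) + 1) % (k + 1) := by
        rw [Fin.val_add, Fin.val_one', Nat.add_mod_mod]
      rw [Equiv.coe_addRight, add_sub_cancel_right, ← Function.iterate_succ_apply' s,
        ← iterate_mod_of_period (k + 1) s hs (j + 1), key]
    have h1 : (fun i => x (i - 1)) = x := huniq _ hshift
    have h3 : ∀ i : Fin (k + 1), x i = x 0 := by
      intro i
      induction i using Fin.induction with
      | zero => rfl
      | succ i ih =>
        have : x (i.succ - 1) = x i.succ := congrFun h1 i.succ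
        rw [← this, ← ih]
        congr 1
        rw [sub_eq_iff_eq_add, Fin.coeSucc_eq_succ]
    refine ⟨(x 0 : A), ?_⟩
    rw [nOp_apply, hx, Finset.sum_range]
    exact Finset.sum_congr rfl fun i _ => by rw [h3 i]
  · intro a ha
    have hNa : nOp (k + 1) s a = 0 := ha
    obtain ⟨x, hx, -⟩ := hX a
    have hN : nOp (k + 1) s a = ∑ i : Fin (k + 1), s^[(i : ℕ)] (((∑ j, x j : X)) : A) := by
      rw [hx, map_sum]
      simp only [nOp_iterate (k + 1) s hs]
      rw [← map_sum, nOp_apply, Finset.sum_range]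
      simp
    obtain ⟨x0, -, huniq0⟩ := hX 0
    have e1 : (fun _ : Fin (k + 1) => (∑ j, x j : X)) = x0 := huniq0 _ (by
      show (0 : A) = ∑ i : Fin (k + 1), s^[(i : ℕ)] (((∑ j, x j : X)) : A)
      rw [← hN, hNa])
    have e2 : (fun _ : Fin (k + 1) => (0 : X)) = x0 := huniq0 _ (by simp [iterate_map_zero])
    have hsum : (∑ j, x j : X) = 0 := congrFun (e1.trans e2.symm) 0
    have hsum' : ∑ j, (x j : A) = 0 := by
      have := congrArg (Subtype.val) hsum
      simpa using this
    have : a = ∑ i : Fin (k + 1), (s^[(i : ℕ)] (x i : A) - (x i : A)) := by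
      rw [Finset.sum_sub_distrib, hsum', sub_zero, ← hx]
    rw [this]
    exact AddSubgroup.sum_mem _ fun i _ => iterate_sub_mem_range_dOp s i _

theorem herb_of_induced (n : ℕ) (s : A →+ A) (hs : ∀ a, s^[n] a = a) (X : AddSubgroup A)
    (hX : ∀ a : A, ∃! x : Fin n → X, a = ∑ i : Fin n, s^[(i : ℕ)] (x i : A)) :
    HerbDef n s ∧ herb n s = 1 := by
  obtain ⟨h1, h2⟩ := ind_of_induced n s hs X hX
  refine ⟨⟨by rw [h1]; exact one_ne_zero, by rw [h2]; exact one_ne_zero⟩, ?_⟩
  unfold herb q
  rw [h1, h2]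
  simp

/-- The shift on `Fin n → X` (functions on `ℤ/n`), as a concrete induced module. -/
theorem herb_shift (n : ℕ) [NeZero n] (X : Type*) [AddCommGroup X]
    (s : (ZMod n → X) →+ (ZMod n → X)) (hs : ∀ x j, s x j = x (j - 1)) :
    HerbDef n s ∧ herb n s = 1 := by
  have hit : ∀ (i : ℕ) (x : ZMod n → X) (j : ZMod n), s^[i] x j = x (j - i) := by
    intro i
    induction i with
    | zero => intro x j; simp
    | succ i ih =>
      intro x j
      rw [Function.iterate_succ_apply', hs, ih]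
      congr 1
      push_cast; ring
  have hs' : ∀ a, s^[n] a = a := by
    intro a; ext j; rw [hit]; simp
  let X' : AddSubgroup (ZMod n → X) :=
    { carrier := {f | ∀ j, j ≠ 0 → f j = 0}
      zero_mem' := fun j _ => rfl
      add_mem' := fun {f g} hf hg j hj => by
        rw [Pi.add_apply, hf j hj, hg j hj, add_zero]
      neg_mem' := fun {f} hf j hj => by
        rw [Pi.neg_apply, hf j hj, neg_zero] }
  have hmem : ∀ (f : X') (j : ZMod n), j ≠ 0 → (f : ZMod n → X) j = 0 := fun f j hj => f.2 j hj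
  have hne : ∀ (i : Fin n) (j : ZMod n), i ≠ ⟨j.val, ZMod.val_lt j⟩ → j - ((i : ℕ) : ZMod n) ≠ 0 := by
    intro i j hi h
    apply hi
    rw [sub_eq_zero] at h
    apply Fin.ext
    show (i : ℕ) = j.val
    rw [h, ZMod.val_natCast, Nat.mod_eq_of_lt i.2]
  have heval : ∀ (y : Fin n → X') (j : ZMod n),
      (∑ i : Fin n, s^[(i : ℕ)] (y i : ZMod n → X)) j
        = (y ⟨j.val, ZMod.val_lt j⟩ : ZMod n → X) 0 := by
    intro y j
    rw [Finset.sum_apply]
    simp only [hit]
    rw [Finset.sum_eq_single (⟨j.val, ZMod.val_lt j⟩ : Fin n)]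
    · simp
    · intro i _ hi
      exact hmem _ _ (hne i j hi)
    · intro h; exact absurd (Finset.mem_univ _) h
  refine herb_of_induced n s hs' X' ?_
  intro a
  refine ⟨fun i => ⟨Pi.single 0 (a ((i : ℕ) : ZMod n)), fun j hj => Pi.single_eq_of_ne hj _⟩, ?_, ?_⟩
  · ext j
    show a j = _
    rw [heval]
    simp
  · intro y hy
    have hy' : a = ∑ i : Fin n, s^[(i : ℕ)] (y i : ZMod n → X) := hy
    funext i
    apply Subtype.ext
    funext j
    show (y i : ZMod n → X) j = (Pi.single 0 (a ((i : ℕ) : ZMod n)) : ZMod n → X) j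
    by_cases hj : j = 0
    · subst hj
      have hi : (⟨(((i : ℕ) : ZMod n)).val, ZMod.val_lt _⟩ : Fin n) = i := by
        apply Fin.ext
        show (((i : ℕ) : ZMod n)).val = (i : ℕ)
        rw [ZMod.val_natCast, Nat.mod_eq_of_lt i.2]
      rw [Pi.single_eq_same, hy', heval, hi]
    · rw [Pi.single_eq_of_ne hj, hmem _ _ hj]

end Fermat.Agent.S55.Cyc
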