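/-
S55 / block CYC: finite groups, isomorphisms, finite kernels and cokernels.
-/
import Fermat.Agent.S55.Cyc.Exact

set_option autoImplicit false

namespace Fermat.Agent.S55.Cyc

variable {A B : Type*} [AddCommGroup A] [AddCommGroup B]

/-- On a finite group every pair has finite indices. -/
theorem QDef.of_finite [Finite A] (f g : A →+ A) : QDef f g := by
  constructor <;> · unfold ind; exact AddSubgroup.index_ne_zero_of_finite

/-- `ind f g * |im g| = |ker f|` when `f g = 0`. -/
theorem ind_mul_card_range (f g : A →+ A) (hfg : ∀ a, f (g a) = 0) :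
    ind f g * Nat.card g.range = Nat.card f.ker := by
  have h1 : g.range ≤ f.ker := by
    rintro _ ⟨b, rfl⟩
    exact hfg b
  have := AddSubgroup.relIndex_mul_relIndex (⊥ : AddSubgroup A) g.range f.ker bot_le h1
  rw [AddSubgroup.relIndex_bot_left, AddSubgroup.relIndex_bot_left] at this
  unfold ind
  rw [mul_comm]
  exact this

/-- `|ker f| * |im f| = |A|`. -/
theorem card_ker_mul_card_range (f : A →+ A) :
    Nat.card f.ker * Nat.card f.range = Nat.card A := by
  rw [← AddSubgroup.index_ker f]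
  exact AddSubgroup.card_mul_index f.ker

/-- The Herbrand quotient of a finite group is `1`. -/
theorem q_of_finite [Finite A] (f g : A →+ A) (hfg : ∀ a, f (g a) = 0) (hgf : ∀ a, g (f a) = 0) :
    q f g = 1 := by
  have h1 := ind_mul_card_range f g hfg
  have h2 := ind_mul_card_range g f hgf
  have h3 := card_ker_mul_card_range f
  have h4 := card_ker_mul_card_range g
  have hpf : 0 < Nat.card f.range := Nat.card_pos
  have hpg : 0 < Nat.card g.range := Nat.card_pos
  have key : ind f g = ind g f := by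
    have : ind f g * (Nat.card g.range * Nat.card f.range)
        = ind g f * (Nat.card g.range * Nat.card f.range) := by
      calc ind f g * (Nat.card g.range * Nat.card f.range)
          = (ind f g * Nat.card g.range) * Nat.card f.range := by ring
        _ = Nat.card A := by rw [h1, h3]
        _ = (ind g f * Nat.card f.range) * Nat.card g.range := by rw [h2, h4]
        _ = ind g f * (Nat.card g.range * Nat.card f.range) := by ring
    exact Nat.eq_of_mul_eq_mul_right (Nat.mul_pos hpg hpf) this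
  unfold q
  rw [key]
  exact div_self (Nat.cast_ne_zero.2 (QDef.of_finite g f).1)

/-- Invariance under isomorphisms. -/
theorem ind_of_equiv (e : A ≃+ B) (fA gA : A →+ A) (fB gB : B →+ B)
    (hf : ∀ a, e (fA a) = fB (e a)) (hg : ∀ a, e (gA a) = gB (e a)) :
    ind fA gA = ind fB gB := by
  have h := ind_eq_of_injective e.toAddMonoidHom e.injective fA gA fB gB hf hg
  have hr : e.toAddMonoidHom.range = ⊤ := AddMonoidHom.range_eq_top.2 e.surjective
  rw [h, hr, inf_top_eq]
  unfold ind
  rw [AddMonoidHom.range_eq_map]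

theorem QDef.of_equiv (e : A ≃+ B) (fA gA : A →+ A) (fB gB : B →+ B)
    (hf : ∀ a, e (fA a) = fB (e a)) (hg : ∀ a, e (gA a) = gB (e a)) :
    QDef fA gA ↔ QDef fB gB := by
  unfold QDef
  rw [ind_of_equiv e fA gA fB gB hf hg, ind_of_equiv e gA fA gB fB hg hf]

theorem q_of_equiv (e : A ≃+ B) (fA gA : A →+ A) (fB gB : B →+ B)
    (hf : ∀ a, e (fA a) = fB (e a)) (hg : ∀ a, e (gA a) = gB (e a)) :
    q fA gA = q fB gB := by
  unfold q
  rw [ind_of_equiv e fA gA fB gB hf hg, ind_of_equiv e gA fA gB fB hg hf]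

/-- A compatible injection with finite cokernel does not change the Herbrand quotient. -/
theorem q_of_finite_coker (i : A →+ B) (hi : Function.Injective i) (hfin : i.range.index ≠ 0)
    (fA gA : A →+ A) (fB gB : B →+ B)
    (hfi : ∀ a, i (fA a) = fB (i a)) (hgi : ∀ a, i (gA a) = gB (i a))
    (hfg : ∀ b, fB (gB b) = 0) (hgf : ∀ b, gB (fB b) = 0) :
    (QDef fA gA ↔ QDef fB gB) ∧ (QDef fB gB → q fA gA = q fB gB) := by
  have hstab : ∀ (hA : A →+ A) (hB : B →+ B), (∀ a, i (hA a) = hB (i a)) →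
      i.range ≤ i.range.comap hB := by
    rintro hA hB h _ ⟨a, rfl⟩
    exact ⟨hA a, h a⟩
  let π : B →+ B ⧸ i.range := QuotientAddGroup.mk' i.range
  let fC : B ⧸ i.range →+ B ⧸ i.range :=
    QuotientAddGroup.map i.range i.range fB (hstab fA fB hfi)
  let gC : B ⧸ i.range →+ B ⧸ i.range :=
    QuotientAddGroup.map i.range i.range gB (hstab gA gB hgi)
  have hπ : Function.Surjective π := QuotientAddGroup.mk'_surjective _
  have hex : i.range = π.ker := (QuotientAddGroup.ker_mk' _).symm
  have hfπ : ∀ b, π (fB b) = fC (π b) := fun _ => rfl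
  have hgπ : ∀ b, π (gB b) = gC (π b) := fun _ => rfl
  have : i.range.FiniteIndex := ⟨hfin⟩
  have hfinC : Finite (B ⧸ i.range) := AddSubgroup.finite_quotient_of_finiteIndex
  have hfgC : ∀ c, fC (gC c) = 0 := by
    intro c
    obtain ⟨b, rfl⟩ := hπ c
    rw [← hgπ, ← hfπ, hfg, map_zero]
  have hgfC : ∀ c, gC (fC c) = 0 := by
    intro c
    obtain ⟨b, rfl⟩ := hπ c
    rw [← hfπ, ← hgπ, hgf, map_zero]
  have hC : QDef fC gC := QDef.of_finite fC gC
  have hsub : QDef fB gB → QDef fA gA := fun hB =>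
    QDef.sub i π hi hπ hex fA gA fB gB fC gC hfi hgi hfπ hgπ hfg hgf hB hC
  refine ⟨⟨fun hA => QDef.mid i π hi hπ hex fA gA fB gB fC gC hfi hgi hfπ hgπ hfg hgf hA hC,
    hsub⟩, fun hB => ?_⟩
  rw [q_mid i π hi hπ hex fA gA fB gB fC gC hfi hgi hfπ hgπ hfg hgf (hsub hB) hC,
    q_of_finite fC gC hfgC hgfC, mul_one]

/-- A compatible surjection with finite kernel does not change the Herbrand quotient. -/
theorem q_of_finite_ker (π : A →+ B) (hπ : Function.Surjective π) (hfin : Finite π.ker)
    (fA gA : A →+ A) (fB gB : B →+ B)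
    (hfπ : ∀ a, π (fA a) = fB (π a)) (hgπ : ∀ a, π (gA a) = gB (π a))
    (hfg : ∀ a, fA (gA a) = 0) (hgf : ∀ a, gA (fA a) = 0) :
    (QDef fA gA ↔ QDef fB gB) ∧ (QDef fA gA → q fA gA = q fB gB) := by
  have hstab : ∀ (hA : A →+ A) (hB : B →+ B), (∀ a, π (hA a) = hB (π a)) →
      ∀ x : π.ker, (hA.comp π.ker.subtype) x ∈ π.ker := by
    intro hA hB h x
    have hx : π (x : A) = 0 := x.2
    rw [AddMonoidHom.mem_ker, AddMonoidHom.comp_apply, AddSubgroup.subtype_apply, h, hx, map_zero]
  let i : π.ker →+ A := π.ker.subtype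
  let fK : π.ker →+ π.ker := (fA.comp π.ker.subtype).codRestrict π.ker (hstab fA fB hfπ)
  let gK : π.ker →+ π.ker := (gA.comp π.ker.subtype).codRestrict π.ker (hstab gA gB hgπ)
  have hi : Function.Injective i := π.ker.subtype_injective
  have hex : i.range = π.ker := AddSubgroup.range_subtype _
  have hfi : ∀ a, i (fK a) = fA (i a) := fun _ => rfl
  have hgi : ∀ a, i (gK a) = gA (i a) := fun _ => rfl
  have hfgK : ∀ a, fK (gK a) = 0 := fun a => hi (by rw [hfi, hgi, hfg, map_zero])
  have hgfK : ∀ a, gK (fK a) = 0 := fun a => hi (by rw [hgi, hfi, hgf, map_zero])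
  have hK : QDef fK gK := QDef.of_finite fK gK
  have hquot : QDef fA gA → QDef fB gB := fun hA =>
    QDef.quot i π hi hπ hex fK gK fA gA fB gB hfi hgi hfπ hgπ hfg hgf hK hA
  refine ⟨⟨hquot, fun hB =>
    QDef.mid i π hi hπ hex fK gK fA gA fB gB hfi hgi hfπ hgπ hfg hgf hK hB⟩, fun hA => ?_⟩
  rw [q_mid i π hi hπ hex fK gK fA gA fB gB hfi hgi hfπ hgπ hfg hgf hK (hquot hA),
    q_of_finite fK gK hfgK hgfK, one_mul]

end Fermat.Agent.S55.Cyc
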