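/-
S55 / block CYC: the quotient `q 0 f = [A : fA] / |ker f|` of a single endomorphism;
multiplicativity under composition.
-/
import Fermat.Agent.S55.Cyc.Basic

set_option autoImplicit false

namespace Fermat.Agent.S55.Cyc

variable {A : Type*} [AddCommGroup A]

theorem ind_zero_left (g : A →+ A) : ind (0 : A →+ A) g = g.range.index := by
  unfold ind
  rw [AddMonoidHom.ker_zero, AddSubgroup.relIndex_top_right]

theorem ind_zero_right (f : A →+ A) : ind f (0 : A →+ A) = Nat.card f.ker := by
  unfold ind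
  rw [AddMonoidHom.range_zero, AddSubgroup.relIndex_bot_left]

/-- `ind f g = 1` means `ker f ⊆ im g`. -/
theorem ind_eq_one_iff (f g : A →+ A) : ind f g = 1 ↔ f.ker ≤ g.range := by
  unfold ind
  exact AddSubgroup.relIndex_eq_one

/-- `[A : fgA] = [A : fA] [A : gA] / [ker f : ker f ∩ gA]` and
`|ker fg| = |ker g| |ker f ∩ gA|`, as an identity between natural numbers. -/
theorem exists_zero_comp (f g : A →+ A) : ∃ x y : ℕ,
    ind (0 : A →+ A) g = x * y ∧ ind (0 : A →+ A) (f.comp g) = ind (0 : A →+ A) f * y ∧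
    ∃ z : ℕ, ind f (0 : A →+ A) = z * x ∧ ind (f.comp g) (0 : A →+ A) = ind g (0 : A →+ A) * z := by
  refine ⟨g.range.relIndex f.ker, (g.range ⊔ f.ker).index, ?_, ?_,
    Nat.card (g.range ⊓ f.ker : AddSubgroup A), ?_, ?_⟩
  · rw [ind_zero_left, ← AddSubgroup.relIndex_mul_index (le_sup_left : g.range ≤ g.range ⊔ f.ker),
      AddSubgroup.relIndex_sup_left]
  · rw [ind_zero_left, ind_zero_left]
    have h1 : (f.comp g).range = g.range.map f := (AddMonoidHom.map_range f g).symm
    have h2 : g.range.map f ≤ f.range := AddSubgroup.map_le_range f _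
    rw [h1, ← AddSubgroup.relIndex_mul_index h2, mul_comm]
    congr 1
    have h3 := AddSubgroup.relIndex_map_map f g.range ⊤
    rw [top_sup_eq, AddSubgroup.relIndex_top_right, ← AddMonoidHom.range_eq_map] at h3
    exact h3
  · rw [ind_zero_right, ← AddSubgroup.relIndex_bot_left, ← AddSubgroup.relIndex_bot_left,
      ← AddSubgroup.inf_relIndex_right g.range f.ker,
      AddSubgroup.relIndex_mul_relIndex _ _ _ bot_le inf_le_right]
  · rw [ind_zero_right, ind_zero_right, ← AddSubgroup.relIndex_bot_left,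
      ← AddSubgroup.relIndex_bot_left, ← AddSubgroup.relIndex_bot_left]
    have hk : (f.comp g).ker = f.ker.comap g := (AddMonoidHom.comap_ker f g).symm
    have hle : g.ker ≤ f.ker.comap g := by
      intro a ha
      rw [AddSubgroup.mem_comap, AddMonoidHom.mem_ker.1 ha]
      exact f.ker.zero_mem
    rw [hk, ← AddSubgroup.relIndex_mul_relIndex _ _ _ (bot_le : ⊥ ≤ g.ker) hle]
    congr 1
    have h4 := AddSubgroup.relIndex_comap (⊥ : AddSubgroup A) g (f.ker.comap g)
    rw [AddSubgroup.map_comap_eq, AddMonoidHom.comap_bot] at h4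
    exact h4

theorem QDef.zero_comp {f g : A →+ A} (hf : QDef 0 f) (hg : QDef 0 g) : QDef 0 (f.comp g) := by
  obtain ⟨x, y, h1, h2, z, h3, h4⟩ := exists_zero_comp f g
  unfold QDef at *
  rw [h1] at hg
  rw [h3] at hf
  rw [h2, h4]
  exact ⟨mul_ne_zero hf.1 (right_ne_zero_of_mul hg.1), mul_ne_zero hg.2 (left_ne_zero_of_mul hf.2)⟩

theorem q_zero_comp {f g : A →+ A} (hf : QDef 0 f) (hg : QDef 0 g) :
    q 0 (f.comp g) = q 0 f * q 0 g := by
  obtain ⟨x, y, h1, h2, z, h3, h4⟩ := exists_zero_comp f g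
  unfold QDef at *
  unfold q
  rw [h1] at hg ⊢
  rw [h3] at hf ⊢
  rw [h2, h4]
  have hx : (x : ℚ) ≠ 0 := Nat.cast_ne_zero.2 (left_ne_zero_of_mul hg.1)
  have hy : (y : ℚ) ≠ 0 := Nat.cast_ne_zero.2 (right_ne_zero_of_mul hg.1)
  have hz : (z : ℚ) ≠ 0 := Nat.cast_ne_zero.2 (left_ne_zero_of_mul hf.2)
  have hk : ((ind g (0 : A →+ A) : ℕ) : ℚ) ≠ 0 := Nat.cast_ne_zero.2 hg.2
  push_cast
  field_simp

/-- Converse finiteness for commuting operators. -/
theorem QDef.zero_of_comp {f g : A →+ A} (h : QDef 0 (f.comp g)) (hc : ∀ a, f (g a) = g (f a)) :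
    QDef 0 f := by
  unfold QDef at *
  rw [ind_zero_left, ind_zero_right] at *
  constructor
  · have hle : (f.comp g).range ≤ f.range := by
      rintro _ ⟨a, rfl⟩
      exact ⟨g a, rfl⟩
    exact fun h0 => h.1 (Nat.eq_zero_of_zero_dvd (h0 ▸ AddSubgroup.index_dvd_of_le hle))
  · have hle : f.ker ≤ (f.comp g).ker := by
      intro a ha
      rw [AddMonoidHom.mem_ker] at ha ⊢
      rw [AddMonoidHom.comp_apply, hc, ha, map_zero]
    have hfin : Finite (f.comp g).ker := Nat.finite_of_card_ne_zero h.2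
    have : Finite f.ker := Finite.of_injective _ (AddSubgroup.inclusion_injective hle)
    exact Nat.card_pos.ne'

theorem ind_zero_left_of_bijective {u : A →+ A} (hu : Function.Bijective u) :
    ind (0 : A →+ A) u = 1 := by
  rw [ind_zero_left, AddMonoidHom.range_eq_top.2 hu.2, AddSubgroup.index_top]

theorem ind_zero_right_of_bijective {u : A →+ A} (hu : Function.Bijective u) :
    ind u (0 : A →+ A) = 1 := by
  rw [ind_zero_right, (AddMonoidHom.ker_eq_bot_iff u).2 hu.1, AddSubgroup.card_bot]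

theorem QDef.zero_of_bijective {u : A →+ A} (hu : Function.Bijective u) : QDef 0 u := by
  unfold QDef
  rw [ind_zero_left_of_bijective hu, ind_zero_right_of_bijective hu]
  exact ⟨one_ne_zero, one_ne_zero⟩

theorem q_zero_of_bijective {u : A →+ A} (hu : Function.Bijective u) : q 0 u = 1 := by
  unfold q
  rw [ind_zero_left_of_bijective hu, ind_zero_right_of_bijective hu]
  simp

/-- The `k`-th power of an endomorphism. -/
def powOp (f : A →+ A) : ℕ → (A →+ A)
  | 0 => AddMonoidHom.id A
  | k + 1 => f.comp (powOp f k)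

@[simp] theorem powOp_zero (f : A →+ A) : powOp f 0 = AddMonoidHom.id A := rfl

@[simp] theorem powOp_succ (f : A →+ A) (k : ℕ) : powOp f (k + 1) = f.comp (powOp f k) := rfl

theorem powOp_apply (f : A →+ A) (k : ℕ) (a : A) : powOp f k a = f^[k] a := by
  induction k with
  | zero => rfl
  | succ k ih => rw [powOp_succ, AddMonoidHom.comp_apply, ih, Function.iterate_succ_apply']

theorem QDef.zero_powOp {f : A →+ A} (hf : QDef 0 f) (k : ℕ) : QDef 0 (powOp f k) := by
  induction k with
  | zero => exact QDef.zero_of_bijective Function.bijective_id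
  | succ k ih => exact QDef.zero_comp hf ih

theorem q_zero_powOp {f : A →+ A} (hf : QDef 0 f) (k : ℕ) : q 0 (powOp f k) = q 0 f ^ k := by
  induction k with
  | zero => simpa using q_zero_of_bijective (u := AddMonoidHom.id A) Function.bijective_id
  | succ k ih => rw [powOp_succ, q_zero_comp hf (QDef.zero_powOp hf k), ih, pow_succ, mul_comm]

end Fermat.Agent.S55.Cyc
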