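/-
S55 / block CYC: if `1 + t + ... + t^(p-1) = 0` on `M` (`p` prime) then multiplication by `p`
is `(t - 1)^(p-1)` up to an automorphism commuting with `t`.
-/
import Fermat.Agent.S55.Cyc.ZeroComp

set_option autoImplicit false

namespace Fermat.Agent.S55.Cyc

open Polynomial

/-- In a domain, `p ~ (ζ - 1)^(p-1)` for a primitive `p`-th root of unity `ζ`. -/
theorem associated_prime_pow_sub_one {R : Type*} [CommRing R] [IsDomain R] (p : ℕ) (hp : p.Prime)
    (ζ : R) (hζ : IsPrimitiveRoot ζ p) : Associated (p : R) ((ζ - 1) ^ (p - 1)) := by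
  obtain ⟨n, rfl⟩ : ∃ n, p = n + 1 := ⟨p - 1, by have := hp.pos; omega⟩
  have h1 := hζ.prod_one_sub_pow_eq_order
  have h2 : ((n + 1 : ℕ) : R) = ∏ k ∈ Finset.range n, (1 - ζ ^ (k + 1)) := by
    rw [h1]; push_cast; ring
  rw [h2, Nat.add_sub_cancel]
  have h3 : (ζ - 1) ^ n = ∏ _k ∈ Finset.range n, (ζ - 1) := by
    rw [Finset.prod_const, Finset.card_range]
  rw [h3]
  refine Associated.prod _ _ _ fun k hk => ?_
  have hk' : k + 1 < n + 1 := by
    have := Finset.mem_range.mp hk; omega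
  have hcop : (k + 1).Coprime (n + 1) :=
    (Nat.coprime_of_lt_prime (Nat.succ_ne_zero k) hk' hp).symm
  have h4 := (hζ.associated_sub_one_pow_sub_one_of_coprime hcop).symm
  have h5 : (1 - ζ ^ (k + 1)) = -(ζ ^ (k + 1) - 1) := by ring
  rw [h5]
  exact h4.neg_left

/-- The same statement as an identity between integral polynomials modulo
`1 + X + ... + X^(p-1)`. -/
theorem exists_poly_unit (p : ℕ) (hp : p.Prime) : ∃ U V W₁ W₂ : ℤ[X],
    U * V = 1 + (∑ i ∈ Finset.range p, X ^ i) * W₁ ∧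
    C (p : ℤ) = U * (X - 1) ^ (p - 1) + (∑ i ∈ Finset.range p, X ^ i) * W₂ := by
  have : Fact p.Prime := ⟨hp⟩
  set f : ℤ[X] := cyclotomic p ℤ with hf
  have hfsum : f = ∑ i ∈ Finset.range p, X ^ i := cyclotomic_prime ℤ p
  have hirr : Irreducible f := cyclotomic.irreducible hp.pos
  have hprime : Prime f := hirr.prime
  have hdom : IsDomain (AdjoinRoot f) := AdjoinRoot.isDomain_of_prime hprime
  have hdeg : f.degree ≠ 0 := by
    rw [hf, degree_cyclotomic, Nat.totient_prime hp]
    have := hp.two_le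
    intro h
    have h' : p - 1 = 0 := by exact_mod_cast h
    omega
  have hinj : Function.Injective (AdjoinRoot.of f) := AdjoinRoot.of.injective_of_degree_ne_zero hdeg
  have hne : NeZero ((p : ℕ) : AdjoinRoot f) := by
    constructor
    intro h
    have h1 : AdjoinRoot.of f (p : ℤ) = AdjoinRoot.of f 0 := by
      rw [map_zero, map_natCast]; exact h
    have := hinj h1
    exact hp.ne_zero (by exact_mod_cast this)
  have hroot : IsPrimitiveRoot (AdjoinRoot.root f) p := by
    rw [← isRoot_cyclotomic_iff]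
    have := AdjoinRoot.isRoot_root f
    rwa [hf, map_cyclotomic] at this
  obtain ⟨u, hu⟩ := (associated_prime_pow_sub_one p hp _ hroot).symm
  obtain ⟨U, hU⟩ := AdjoinRoot.mk_surjective (g := f) (u : AdjoinRoot f)
  obtain ⟨V, hV⟩ := AdjoinRoot.mk_surjective (g := f) ((u⁻¹ : (AdjoinRoot f)ˣ) : AdjoinRoot f)
  have e1 : AdjoinRoot.mk f (U * V) = AdjoinRoot.mk f 1 := by
    rw [map_mul, hU, hV, map_one, Units.mul_inv]
  have e2 : AdjoinRoot.mk f (C (p : ℤ)) = AdjoinRoot.mk f (U * (X - 1) ^ (p - 1)) := by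
    rw [map_mul, hU, map_pow, map_sub, map_one, AdjoinRoot.mk_X, AdjoinRoot.mk_C, mul_comm, hu,
      map_natCast]
  rw [AdjoinRoot.mk_eq_mk] at e1 e2
  obtain ⟨W₁, hW₁⟩ := e1
  obtain ⟨W₂, hW₂⟩ := e2
  refine ⟨U, V, W₁, W₂, ?_, ?_⟩
  · rw [← hfsum, ← hW₁]; ring
  · rw [← hfsum, ← hW₂]; ring

variable {M : Type*} [AddCommGroup M]

/-- Operator form. -/
theorem exists_unit_of_nOp_eq_zero (p : ℕ) (hp : p.Prime) (t : M →+ M)
    (ht : ∀ m, nOp p t m = 0) :
    ∃ u v : M →+ M, (∀ m, u (v m) = m) ∧ (∀ m, v (u m) = m) ∧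
      (∀ m, u (dOp t m) = dOp t (u m)) ∧ (∀ m, p • m = u (powOp (dOp t) (p - 1) m)) := by
  obtain ⟨U, V, W₁, W₂, hUV, hp'⟩ := exists_poly_unit p hp
  let T : Module.End ℤ M := t.toIntLinearMap
  let φ : ℤ[X] →ₐ[ℤ] Module.End ℤ M := Polynomial.aeval T
  have hTpow : ∀ (i : ℕ) (m : M), (T ^ i) m = t^[i] m := by
    intro i m
    rw [Module.End.pow_apply]
    rfl
  have hN : φ (∑ i ∈ Finset.range p, X ^ i) = 0 := by
    ext m
    have := ht m
    rw [nOp_apply] at this
    simp only [φ, map_sum, map_pow, aeval_X, LinearMap.sum_apply, hTpow, this,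
      LinearMap.zero_apply]
  have hD : ∀ m, φ (X - 1) m = dOp t m := by
    intro m
    simp only [φ, map_sub, aeval_X, map_one, LinearMap.sub_apply, Module.End.one_apply, dOp_apply]
    rfl
  have hDk : ∀ (k : ℕ) (m : M), φ ((X - 1) ^ k) m = powOp (dOp t) k m := by
    intro k
    induction k with
    | zero => intro m; simp
    | succ k ih =>
      intro m
      rw [pow_succ', map_mul, Module.End.mul_apply, ih, hD, powOp_succ, AddMonoidHom.comp_apply]
  have h1 : φ U * φ V = 1 := by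
    rw [← map_mul, hUV, map_add, map_mul, hN, zero_mul, add_zero, map_one]
  have h2 : φ V * φ U = 1 := by
    rw [← map_mul, mul_comm, hUV, map_add, map_mul, hN, zero_mul, add_zero, map_one]
  refine ⟨(φ U).toAddMonoidHom, (φ V).toAddMonoidHom, ?_, ?_, ?_, ?_⟩
  · intro m
    exact LinearMap.congr_fun h1 m
  · intro m
    exact LinearMap.congr_fun h2 m
  · intro m
    show φ U (dOp t m) = dOp t (φ U m)
    rw [← hD, ← hD, ← Module.End.mul_apply, ← Module.End.mul_apply, ← map_mul, ← map_mul, mul_comm]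
  · intro m
    show p • m = φ U (powOp (dOp t) (p - 1) m)
    rw [← hDk, ← Module.End.mul_apply, ← map_mul]
    have h3 : φ (C (p : ℤ)) = φ (U * (X - 1) ^ (p - 1)) := by
      rw [hp', map_add, map_mul _ (∑ i ∈ Finset.range p, X ^ i), hN, zero_mul, add_zero]
    rw [← h3]
    simp only [φ, aeval_C, Module.algebraMap_end_apply]
    rw [natCast_zsmul]

theorem powOp_comm_of_comm (f u : M →+ M) (h : ∀ m, u (f m) = f (u m)) (k : ℕ) (m : M) :
    u (powOp f k m) = powOp f k (u m) := by
  induction k generalizing m with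
  | zero => rfl
  | succ k ih => simp only [powOp_succ, AddMonoidHom.comp_apply, h, ih]

theorem powOp_succ' (f : M →+ M) (k : ℕ) : powOp f (k + 1) = (powOp f k).comp f := by
  ext m
  simp only [powOp_apply, AddMonoidHom.comp_apply, Function.iterate_succ_apply]

/-- If `N = 0` on `M` and `M/pM`, `M[p]` are finite then so are `M/DM`, `ker D`, and
`phi M p = q_{0,D}(M)^(p-1)`. -/
theorem phi_eq_of_nOp_eq_zero (p : ℕ) (hp : p.Prime) (t : M →+ M)
    (ht : ∀ m, nOp p t m = 0) (h : PhiDef M p) :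
    QDef 0 (dOp t) ∧ phi M p = q 0 (dOp t) ^ (p - 1) := by
  obtain ⟨u, v, huv, hvu, hut, hpu⟩ := exists_unit_of_nOp_eq_zero p hp t ht
  have hub : Function.Bijective u :=
    ⟨Function.LeftInverse.injective hvu, Function.RightInverse.surjective huv⟩
  have hmul : mulOp M p = u.comp (powOp (dOp t) (p - 1)) := by
    ext m
    simp [hpu]
  obtain ⟨k, hk⟩ : ∃ k, p - 1 = k + 1 := ⟨p - 2, by have := hp.two_le; omega⟩
  have hD : QDef 0 (dOp t) := by
    have h1 : mulOp M p = (dOp t).comp (u.comp (powOp (dOp t) k)) := by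
      rw [hmul, hk]
      ext m
      simp only [powOp_succ, AddMonoidHom.comp_apply, hut]
    unfold PhiDef at h
    rw [h1] at h
    refine QDef.zero_of_comp h ?_
    intro a
    simp only [AddMonoidHom.comp_apply]
    rw [← hut]
    congr 1
    have := DFunLike.congr_fun (powOp_succ' (dOp t) k) a
    simp only [powOp_succ, AddMonoidHom.comp_apply] at this
    rw [this]
  refine ⟨hD, ?_⟩
  unfold phi
  rw [hmul, q_zero_comp (QDef.zero_of_bijective hub) (QDef.zero_powOp hD _),
    q_zero_of_bijective hub, one_mul, q_zero_powOp hD]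

end Fermat.Agent.S55.Cyc
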