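/-
S55 / block CYC: Herbrand quotients of finite products.
-/
import Fermat.Agent.S55.Cyc.Exact

set_option autoImplicit false

namespace Fermat.Agent.S55.Cyc

section prod

variable {A B : Type*} [AddCommGroup A] [AddCommGroup B]

theorem relIndex_prod_prod (H K : AddSubgroup A) (H' K' : AddSubgroup B) :
    (H.prod H').relIndex (K.prod K') = H.relIndex K * H'.relIndex K' := by
  have h1 : (⊤ : AddSubgroup (K × K')).map (K.subtype.prodMap K'.subtype) = K.prod K' := by
    rw [← AddMonoidHom.range_eq_map, AddMonoidHom.range_prodMap, AddSubgroup.range_subtype,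
      AddSubgroup.range_subtype]
  have h2 : (H.prod H').comap (K.subtype.prodMap K'.subtype) =
      (H.addSubgroupOf K).prod (H'.addSubgroupOf K') := by
    ext x
    simp [AddSubgroup.mem_prod, AddSubgroup.mem_addSubgroupOf]
  rw [← h1, ← AddSubgroup.relIndex_comap, h2, AddSubgroup.relIndex_top_right,
    AddSubgroup.index_prod]
  rfl

theorem ind_prodMap (fA gA : A →+ A) (fB gB : B →+ B) :
    ind (fA.prodMap fB) (gA.prodMap gB) = ind fA gA * ind fB gB := by
  unfold ind
  rw [AddMonoidHom.range_prodMap, AddMonoidHom.ker_prodMap, relIndex_prod_prod]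

theorem QDef.prodMap {fA gA : A →+ A} {fB gB : B →+ B} (hA : QDef fA gA) (hB : QDef fB gB) :
    QDef (fA.prodMap fB) (gA.prodMap gB) := by
  unfold QDef at *
  rw [ind_prodMap, ind_prodMap]
  exact ⟨mul_ne_zero hA.1 hB.1, mul_ne_zero hA.2 hB.2⟩

theorem q_prodMap (fA gA : A →+ A) (fB gB : B →+ B) :
    q (fA.prodMap fB) (gA.prodMap gB) = q fA gA * q fB gB := by
  unfold q
  rw [ind_prodMap, ind_prodMap]
  push_cast
  rw [mul_div_mul_comm]

end prod

section pi

variable {ι : Type*} [Fintype ι] {X : ι → Type*} [∀ i, AddCommGroup (X i)]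

/-- The componentwise endomorphism of a product. -/
def piOp (f : ∀ i, X i →+ X i) : (∀ i, X i) →+ (∀ i, X i) where
  toFun x i := f i (x i)
  map_zero' := by ext i; simp
  map_add' x y := by ext i; simp

omit [Fintype ι] in
@[simp] theorem piOp_apply (f : ∀ i, X i →+ X i) (x : ∀ i, X i) (i : ι) :
    piOp f x i = f i (x i) := rfl

theorem index_pi_dep (H : ∀ i, AddSubgroup (X i)) :
    (AddSubgroup.pi Set.univ H).index = ∏ i, (H i).index := by
  simp_rw [AddSubgroup.index, ← Nat.card_pi]
  refine Nat.card_congr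
    ((Quotient.congrRight (fun x y ↦ ?_)).trans (Setoid.piQuotientEquiv _).symm)
  rw [QuotientAddGroup.leftRel_pi]

theorem relIndex_pi_pi (H K : ∀ i, AddSubgroup (X i)) :
    (AddSubgroup.pi Set.univ H).relIndex (AddSubgroup.pi Set.univ K) =
      ∏ i, (H i).relIndex (K i) := by
  let φ : (∀ i, K i) →+ (∀ i, X i) :=
    { toFun := fun x i => (x i : X i)
      map_zero' := rfl
      map_add' := fun _ _ => rfl }
  have h1 : (⊤ : AddSubgroup (∀ i, K i)).map φ = AddSubgroup.pi Set.univ K := by
    ext x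
    simp only [AddSubgroup.mem_map, AddSubgroup.mem_top, true_and, AddSubgroup.mem_pi,
      Set.mem_univ, forall_true_left]
    constructor
    · rintro ⟨y, rfl⟩ i
      exact (y i).2
    · intro h
      exact ⟨fun i => ⟨x i, h i⟩, rfl⟩
  have h2 : (AddSubgroup.pi Set.univ H).comap φ =
      AddSubgroup.pi Set.univ fun i => (H i).addSubgroupOf (K i) := by
    ext x
    simp [AddSubgroup.mem_pi, AddSubgroup.mem_addSubgroupOf, φ]
  rw [← h1, ← AddSubgroup.relIndex_comap, h2, AddSubgroup.relIndex_top_right, index_pi_dep]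
  rfl

theorem ind_piOp (f g : ∀ i, X i →+ X i) :
    ind (piOp f) (piOp g) = ∏ i, ind (f i) (g i) := by
  unfold ind
  have hr : (piOp g).range = AddSubgroup.pi Set.univ fun i => (g i).range := by
    ext x
    simp only [AddMonoidHom.mem_range, AddSubgroup.mem_pi, Set.mem_univ, forall_true_left]
    constructor
    · rintro ⟨y, rfl⟩ i
      exact ⟨y i, rfl⟩
    · intro h
      choose y hy using h
      exact ⟨y, funext hy⟩
  have hk : (piOp f).ker = AddSubgroup.pi Set.univ fun i => (f i).ker := by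
    ext x
    simp only [AddMonoidHom.mem_ker, AddSubgroup.mem_pi, Set.mem_univ, forall_true_left]
    exact funext_iff
  rw [hr, hk, relIndex_pi_pi]

theorem QDef.piOp {f g : ∀ i, X i →+ X i} (h : ∀ i, QDef (f i) (g i)) :
    QDef (piOp f) (piOp g) := by
  unfold QDef
  rw [ind_piOp, ind_piOp]
  exact ⟨Finset.prod_ne_zero_iff.2 fun i _ => (h i).1, Finset.prod_ne_zero_iff.2 fun i _ => (h i).2⟩

theorem q_piOp (f g : ∀ i, X i →+ X i) :
    q (piOp f) (piOp g) = ∏ i, q (f i) (g i) := by
  unfold q
  rw [ind_piOp, ind_piOp]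
  push_cast
  rw [Finset.prod_div_distrib]

end pi

end Fermat.Agent.S55.Cyc
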