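/-
S55 / block CYC: the trivial-action quotient `phi A p = [A : pA] / |A[p]|`.
-/
import Fermat.Agent.S55.Cyc.ZeroComp
import Fermat.Agent.S55.Cyc.Prod

set_option autoImplicit false

namespace Fermat.Agent.S55.Cyc

variable {A B C : Type*} [AddCommGroup A] [AddCommGroup B] [AddCommGroup C]

theorem ind_zero_mulOp (p : ℕ) : ind (0 : A →+ A) (mulOp A p) = (mulOp A p).range.index :=
  ind_zero_left _

theorem ind_mulOp_zero (p : ℕ) : ind (mulOp A p) (0 : A →+ A) = Nat.card (mulOp A p).ker :=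
  ind_zero_right _

/-- `PhiDef A p` unfolded: `A / pA` and `A[p]` are finite. -/
theorem phiDef_iff (p : ℕ) :
    PhiDef A p ↔ (mulOp A p).range.index ≠ 0 ∧ Nat.card (mulOp A p).ker ≠ 0 := by
  unfold PhiDef QDef
  rw [ind_zero_mulOp, ind_mulOp_zero]

theorem phi_eq (p : ℕ) :
    phi A p = ((mulOp A p).range.index : ℚ) / (Nat.card (mulOp A p).ker : ℚ) := by
  unfold phi q
  rw [ind_zero_mulOp, ind_mulOp_zero]

/-- `phi` is multiplicative in short exact sequences. -/
theorem phi_mid (p : ℕ) (i : A →+ B) (π : B →+ C) (hi : Function.Injective i)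
    (hπ : Function.Surjective π) (hex : i.range = π.ker) (hA : PhiDef A p) (hC : PhiDef C p) :
    PhiDef B p ∧ phi B p = phi A p * phi C p :=
  ⟨QDef.mid i π hi hπ hex 0 (mulOp A p) 0 (mulOp B p) 0 (mulOp C p) (fun a => by simp)
      (fun a => by simp) (fun b => by simp) (fun b => by simp) (fun b => by simp)
      (fun b => by simp) hA hC,
    q_mid i π hi hπ hex 0 (mulOp A p) 0 (mulOp B p) 0 (mulOp C p) (fun a => by simp)
      (fun a => by simp) (fun b => by simp) (fun b => by simp) (fun b => by simp)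
      (fun b => by simp) hA hC⟩

theorem PhiDef.sub (p : ℕ) (i : A →+ B) (π : B →+ C) (hi : Function.Injective i)
    (hπ : Function.Surjective π) (hex : i.range = π.ker) (hB : PhiDef B p) (hC : PhiDef C p) :
    PhiDef A p :=
  QDef.sub i π hi hπ hex 0 (mulOp A p) 0 (mulOp B p) 0 (mulOp C p) (fun a => by simp)
    (fun a => by simp) (fun b => by simp) (fun b => by simp) (fun b => by simp)
    (fun b => by simp) hB hC

theorem PhiDef.quot (p : ℕ) (i : A →+ B) (π : B →+ C) (hi : Function.Injective i)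
    (hπ : Function.Surjective π) (hex : i.range = π.ker) (hA : PhiDef A p) (hB : PhiDef B p) :
    PhiDef C p :=
  QDef.quot i π hi hπ hex 0 (mulOp A p) 0 (mulOp B p) 0 (mulOp C p) (fun a => by simp)
    (fun a => by simp) (fun b => by simp) (fun b => by simp) (fun b => by simp)
    (fun b => by simp) hA hB

theorem phi_of_finite [Finite A] (p : ℕ) : PhiDef A p ∧ phi A p = 1 :=
  ⟨QDef.of_finite _ _, q_of_finite _ _ (fun a => by simp) (fun a => by simp)⟩

theorem phi_of_equiv (e : A ≃+ B) (p : ℕ) : (PhiDef A p ↔ PhiDef B p) ∧ phi A p = phi B p :=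
  ⟨QDef.of_equiv e 0 (mulOp A p) 0 (mulOp B p) (fun a => by simp) (fun a => by simp),
    q_of_equiv e 0 (mulOp A p) 0 (mulOp B p) (fun a => by simp) (fun a => by simp)⟩

theorem phi_int (p : ℕ) (hp : 0 < p) : PhiDef ℤ p ∧ phi ℤ p = p := by
  have hr : (mulOp ℤ p).range = AddSubgroup.zmultiples (p : ℤ) := by
    ext x
    simp only [AddMonoidHom.mem_range, mulOp_apply, AddSubgroup.mem_zmultiples_iff, smul_eq_mul,
      nsmul_eq_mul]
    constructor
    · rintro ⟨y, rfl⟩; exact ⟨y, mul_comm _ _⟩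
    · rintro ⟨y, rfl⟩; exact ⟨y, mul_comm _ _⟩
  have hidx : (mulOp ℤ p).range.index = p := by
    rw [hr, Int.index_zmultiples]; simp
  have hk : (mulOp ℤ p).ker = ⊥ := by
    ext x
    simp only [AddMonoidHom.mem_ker, mulOp_apply, nsmul_eq_mul, AddSubgroup.mem_bot,
      mul_eq_zero, Nat.cast_eq_zero]
    constructor
    · rintro (h | h)
      · omega
      · exact h
    · exact Or.inr
  have hcard : Nat.card (mulOp ℤ p).ker = 1 := by rw [hk]; simp
  refine ⟨(phiDef_iff p).2 ⟨by rw [hidx]; omega, by rw [hcard]; omega⟩, ?_⟩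
  rw [phi_eq, hidx, hcard]; simp

theorem phi_pi_int (ι : Type*) [Fintype ι] (p : ℕ) (hp : 0 < p) :
    PhiDef (ι → ℤ) p ∧ phi (ι → ℤ) p = (p : ℚ) ^ Fintype.card ι := by
  have h1 : mulOp (ι → ℤ) p = piOp (fun _ : ι => mulOp ℤ p) := by
    apply AddMonoidHom.ext; intro x; funext i; simp
  have h0 : (0 : (ι → ℤ) →+ (ι → ℤ)) = piOp (fun _ : ι => (0 : ℤ →+ ℤ)) := by
    apply AddMonoidHom.ext; intro x; funext i; simp
  constructor
  · unfold PhiDef
    rw [h0, h1]
    exact QDef.piOp (fun _ => (phi_int p hp).1)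
  · unfold phi
    rw [h0, h1, q_piOp]
    have h2 : q (0 : ℤ →+ ℤ) (mulOp ℤ p) = p := (phi_int p hp).2
    simp [h2]

/-- For a finitely generated abelian group `phi A p = p ^ rank A`. -/
theorem phi_of_fg [AddGroup.FG A] (p : ℕ) (hp : 0 < p) :
    PhiDef A p ∧ phi A p = (p : ℚ) ^ Module.finrank ℤ A := by
  have : Module.Finite ℤ A := Module.Finite.iff_addGroup_fg.2 inferInstance
  set T : Submodule ℤ A := Submodule.torsion ℤ A with hT
  have : Module.Finite ℤ T := Module.Finite.of_fg (IsNoetherian.noetherian T)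
  have htors : Module.IsTorsion ℤ T := Submodule.torsion_isTorsion
  have : Finite T := Module.finite_of_fg_torsion T htors
  have : Module.Free ℤ (A ⧸ T) := Module.free_of_finite_type_torsion_free'
  have hrank : Module.finrank ℤ (A ⧸ T) = Module.finrank ℤ A := by
    have h1 := T.finrank_quotient_add_finrank
    have h2 : Module.finrank ℤ T = 0 := Module.finrank_eq_zero_iff_isTorsion.2 htors
    omega
  let eq : (A ⧸ T) ≃+ (Fin (Module.finrank ℤ (A ⧸ T)) → ℤ) :=
    (Module.finBasis ℤ (A ⧸ T)).equivFun.toAddEquiv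
  have hpi := phi_pi_int (Fin (Module.finrank ℤ (A ⧸ T))) p hp
  have heq := phi_of_equiv eq p
  have hQ : PhiDef (A ⧸ T) p := heq.1.2 hpi.1
  have hfin := phi_of_finite (A := T) p
  have hmid := phi_mid p T.subtype.toAddMonoidHom T.mkQ.toAddMonoidHom
    (Submodule.injective_subtype T) (Submodule.mkQ_surjective T)
    (by
      ext x
      simp [AddMonoidHom.mem_range, AddMonoidHom.mem_ker])
    hfin.1 hQ
  refine ⟨hmid.1, ?_⟩
  rw [hmid.2, hfin.2, one_mul, heq.2, hpi.2, Fintype.card_fin, hrank]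

end Fermat.Agent.S55.Cyc
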