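/-
S55 / block CYC: TATE'S LEMMA.  For `s` of prime order `p` acting on `A` with `A/pA`, `A[p]` finite:
`h(A)^(p-1) = phi(A^s)^p / phi(A)`.
-/
import Fermat.Agent.S55.Cyc.Cyclotomic
import Fermat.Agent.S55.Cyc.Cyclic
import Fermat.Agent.S55.Cyc.Phi

set_option autoImplicit false

namespace Fermat.Agent.S55.Cyc

variable {A : Type*} [AddCommGroup A]

/-- The restriction of `s` to `M = (s - 1) A`. -/
def resRange (s : A →+ A) : (dOp s).range →+ (dOp s).range :=
  (s.comp (dOp s).range.subtype).codRestrict (dOp s).range (by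
    rintro ⟨_, a, rfl⟩
    exact ⟨s a, by simp⟩)

@[simp] theorem resRange_coe (s : A →+ A) (m : (dOp s).range) : (resRange s m : A) = s m := rfl

theorem resRange_iterate_coe (s : A →+ A) (k : ℕ) (m : (dOp s).range) :
    (((resRange s)^[k] m : (dOp s).range) : A) = s^[k] m := by
  induction k generalizing m with
  | zero => rfl
  | succ k ih => rw [Function.iterate_succ_apply, ih, Function.iterate_succ_apply, resRange_coe]

theorem nOp_resRange (n : ℕ) (s : A →+ A) (hs : ∀ a, s^[n] a = a) (m : (dOp s).range) :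
    nOp n (resRange s) m = 0 := by
  obtain ⟨_, a, rfl⟩ := m
  apply Subtype.ext
  have := nOp_dOp n s hs a
  simp only [nOp_apply] at this ⊢
  rw [AddSubgroup.val_finsetSum]
  simpa [resRange_iterate_coe] using this

/-- `M = (s-1)A` inherits finiteness of `M/pM`, `M[p]`. -/
theorem PhiDef.range_dOp (p : ℕ) (s : A →+ A) (h : PhiDef A p) : PhiDef (dOp s).range p := by
  rw [phiDef_iff] at h ⊢
  obtain ⟨h1, h2⟩ := h
  constructor
  · have hmap : (mulOp (dOp s).range p).range
        = (mulOp A p).range.map (dOp s).rangeRestrict := by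
      ext m
      constructor
      · rintro ⟨⟨_, a, rfl⟩, rfl⟩
        refine ⟨p • a, ⟨a, rfl⟩, ?_⟩
        apply Subtype.ext
        simp [map_nsmul]
      · rintro ⟨_, ⟨a, rfl⟩, rfl⟩
        refine ⟨(dOp s).rangeRestrict a, ?_⟩
        apply Subtype.ext
        simp [map_nsmul]
    rw [hmap]
    exact ne_zero_of_dvd_ne_zero h1
      (AddSubgroup.index_map_dvd _ (dOp s).rangeRestrict_surjective)
  · have hfin : Finite (mulOp A p).ker := Nat.finite_of_card_ne_zero h2
    have hinj : Function.Injective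
        (fun m : (mulOp (dOp s).range p).ker => (⟨(m : (dOp s).range), by
          have hm := m.2
          rw [AddMonoidHom.mem_ker] at hm ⊢
          exact congrArg Subtype.val hm⟩ : (mulOp A p).ker)) := by
      intro m m' hmm
      apply Subtype.ext
      apply Subtype.ext
      exact congrArg (fun x : (mulOp A p).ker => (x : A)) hmm
    have : Finite (mulOp (dOp s).range p).ker := Finite.of_injective _ hinj
    exact Nat.card_pos.ne'

theorem nOp_of_mem_ker (n : ℕ) (s : A →+ A) (a : A) (ha : a ∈ (dOp s).ker) :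
    nOp n s a = n • a := by
  have hfix : s a = a := by
    rw [AddMonoidHom.mem_ker, dOp_apply] at ha
    exact sub_eq_zero.1 ha
  have hit : ∀ i : ℕ, s^[i] a = a := fun i => Function.iterate_fixed hfix i
  simp [nOp_apply, hit]

section

variable (p : ℕ) (hp : p.Prime) (s : A →+ A) (hs : ∀ a, s^[p] a = a) (h : PhiDef A p)

include hp hs h

theorem tate_aux :
    PhiDef (dOp s).ker p ∧ QDef 0 (dOp (resRange s)) ∧ HerbDef p s ∧
    phi A p = phi (dOp s).ker p * q 0 (dOp (resRange s)) ^ (p - 1) ∧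
    herb p s = phi (dOp s).ker p / q 0 (dOp (resRange s)) := by
  have hM : PhiDef (dOp s).range p := PhiDef.range_dOp p s h
  obtain ⟨hD, hphiM⟩ := phi_eq_of_nOp_eq_zero p hp (resRange s) (nOp_resRange p s hs) hM
  have hi : Function.Injective (dOp s).ker.subtype := Subtype.val_injective
  have hπ : Function.Surjective (dOp s).rangeRestrict := (dOp s).rangeRestrict_surjective
  have hex : (dOp s).ker.subtype.range = (dOp s).rangeRestrict.ker := by
    rw [AddSubgroup.range_subtype, AddMonoidHom.ker_rangeRestrict]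
  have hK : PhiDef (dOp s).ker p := PhiDef.sub p _ _ hi hπ hex h hM
  have hphi := (phi_mid p _ _ hi hπ hex hK hM).2
  have c1 : ∀ a : (dOp s).ker, (dOp s).ker.subtype ((0 : (dOp s).ker →+ (dOp s).ker) a)
      = dOp s ((dOp s).ker.subtype a) := by
    intro a
    exact a.2.symm
  have c2 : ∀ a : (dOp s).ker, (dOp s).ker.subtype (mulOp (dOp s).ker p a)
      = nOp p s ((dOp s).ker.subtype a) := by
    intro a
    rw [AddSubgroup.subtype_apply, AddSubgroup.subtype_apply, nOp_of_mem_ker p s a a.2]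
    rfl
  have c3 : ∀ b : A, (dOp s).rangeRestrict (dOp s b)
      = dOp (resRange s) ((dOp s).rangeRestrict b) := by
    intro b
    apply Subtype.ext
    simp
  have c4 : ∀ b : A, (dOp s).rangeRestrict (nOp p s b)
      = (0 : (dOp s).range →+ (dOp s).range) ((dOp s).rangeRestrict b) := by
    intro b
    apply Subtype.ext
    exact dOp_nOp p s hs b
  have hH : HerbDef p s :=
    QDef.mid _ _ hi hπ hex _ _ _ _ _ _ c1 c2 c3 c4 (dOp_nOp p s hs) (nOp_dOp p s hs) hK hD.symm
  have hq := q_mid _ _ hi hπ hex _ _ _ _ _ _ c1 c2 c3 c4 (dOp_nOp p s hs) (nOp_dOp p s hs)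
    hK hD.symm
  refine ⟨hK, hD, hH, ?_, ?_⟩
  · rw [hphi, hphiM]
  · unfold herb
    rw [hq, q_symm 0 (dOp (resRange s))]
    rfl

/-- **Tate's lemma.** -/
theorem tate_lemma :
    PhiDef (dOp s).ker p ∧ HerbDef p s ∧
    herb p s ^ (p - 1) = phi (dOp s).ker p ^ p / phi A p := by
  obtain ⟨hK, hD, hH, h1, h2⟩ := tate_aux p hp s hs h
  refine ⟨hK, hH, ?_⟩
  have hK0 : phi (dOp s).ker p ≠ 0 := QDef.q_ne_zero hK
  have hD0 : q 0 (dOp (resRange s)) ≠ 0 := QDef.q_ne_zero hD
  obtain ⟨k, rfl⟩ : ∃ k, p = k + 1 := ⟨p - 1, by have := hp.pos; omega⟩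
  rw [h1, h2]
  simp only [Nat.add_sub_cancel]
  rw [div_pow, pow_succ]
  field_simp

end

end Fermat.Agent.S55.Cyc
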