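/-
S55 / block CYC: Tate's lemma in the cardinality form `NIT.FI.TateLemma` consumed by block NIT.
-/
import Fermat.Agent.S55.Cyc.Tate
import Fermat.Agent.S55.NIT.FI.Defs

set_option autoImplicit false

namespace Fermat.Agent.S55.Cyc

universe u

theorem zsmulAddGroupHom_eq_mulOp (A : Type*) [AddCommGroup A] (p : ℕ) :
    (zsmulAddGroupHom (p : ℤ) : A →+ A) = mulOp A p := by
  ext a
  simp

theorem ind_eq_card {A : Type*} [AddCommGroup A] (f g : A →+ A) :
    ind f g = Nat.card (f.ker ⧸ g.range.addSubgroupOf f.ker) := rfl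

/-- Tate's lemma, division-free cardinality form. -/
theorem tate_lemma_card {A : Type*} [AddCommGroup A] (p : ℕ) (hp : p.Prime) (s : A →+ A)
    (hs : ∀ a, s^[p] a = a) (h : PhiDef A p) :
    ind (dOp s) (nOp p s) ^ (p - 1) * (mulOp A p).range.index
        * Nat.card (mulOp (dOp s).ker p).ker ^ p
      = ind (nOp p s) (dOp s) ^ (p - 1) * Nat.card (mulOp A p).ker
        * (mulOp (dOp s).ker p).range.index ^ p := by
  obtain ⟨hK, hH, hT⟩ := tate_lemma p hp s hs h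
  rw [phi_eq, phi_eq] at hT
  unfold herb q at hT
  rw [phiDef_iff] at h hK
  have e1 : ((mulOp A p).range.index : ℚ) ≠ 0 := Nat.cast_ne_zero.2 h.1
  have e2 : (Nat.card (mulOp A p).ker : ℚ) ≠ 0 := Nat.cast_ne_zero.2 h.2
  have e3 : ((mulOp (dOp s).ker p).range.index : ℚ) ≠ 0 := Nat.cast_ne_zero.2 hK.1
  have e4 : (Nat.card (mulOp (dOp s).ker p).ker : ℚ) ≠ 0 := Nat.cast_ne_zero.2 hK.2
  have e5 : (ind (dOp s) (nOp p s) : ℚ) ≠ 0 := Nat.cast_ne_zero.2 hH.1
  have e6 : (ind (nOp p s) (dOp s) : ℚ) ≠ 0 := Nat.cast_ne_zero.2 hH.2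
  have : ((ind (dOp s) (nOp p s) ^ (p - 1) * (mulOp A p).range.index
        * Nat.card (mulOp (dOp s).ker p).ker ^ p : ℕ) : ℚ)
      = ((ind (nOp p s) (dOp s) ^ (p - 1) * Nat.card (mulOp A p).ker
        * (mulOp (dOp s).ker p).range.index ^ p : ℕ) : ℚ) := by
    push_cast
    rw [div_pow, div_pow] at hT
    field_simp at hT
    linarith
  exact_mod_cast this

/-- The hypothesis `TateLemma` of block NIT/FI. -/
theorem tateLemma (p : ℕ) (hp : p.Prime) : NIT.FI.TateLemma.{u} p := by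
  intro A _ s hs hfin1 hfin2 D N hD hN
  obtain rfl : D = dOp s := by ext a; simp [hD]
  obtain rfl : N = nOp p s := by ext a; simp [hN]
  rw [zsmulAddGroupHom_eq_mulOp] at hfin1 hfin2 ⊢
  rw [zsmulAddGroupHom_eq_mulOp]
  have h : PhiDef A p := by
    rw [phiDef_iff]
    exact ⟨(Nat.card_pos (α := A ⧸ (mulOp A p).range)).ne', (Nat.card_pos (α := (mulOp A p).ker)).ne'⟩
  obtain ⟨hK, hH, -⟩ := tate_lemma p hp s hs h
  rw [phiDef_iff] at hK
  refine ⟨Nat.finite_of_card_ne_zero hH.1, Nat.finite_of_card_ne_zero hH.2,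
    Nat.finite_of_card_ne_zero hK.1, ?_⟩
  exact tate_lemma_card p hp s hs h

end Fermat.Agent.S55.Cyc
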