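/-
S55 / block CYC: consumer API for the Herbrand quotient `herb n s` of a cyclic group `⟨s⟩`, `s^n = 1`.
-/
import Fermat.Agent.S55.Cyc.Tate

set_option autoImplicit false

namespace Fermat.Agent.S55.Cyc

variable {A B C : Type*} [AddCommGroup A] [AddCommGroup B] [AddCommGroup C]

/-- compatibility of `D` with an equivariant map -/
theorem map_dOp (φ : A →+ B) (sA : A →+ A) (sB : B →+ B) (h : ∀ a, φ (sA a) = sB (φ a)) (a : A) :
    φ (dOp sA a) = dOp sB (φ a) := by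
  simp [h]

theorem map_iterate_of_comm (φ : A →+ B) (sA : A →+ A) (sB : B →+ B)
    (h : ∀ a, φ (sA a) = sB (φ a)) (k : ℕ) (a : A) : φ (sA^[k] a) = sB^[k] (φ a) := by
  induction k generalizing a with
  | zero => rfl
  | succ k ih => rw [Function.iterate_succ_apply, ih, h, Function.iterate_succ_apply]

/-- compatibility of `N` with an equivariant map -/
theorem map_nOp (n : ℕ) (φ : A →+ B) (sA : A →+ A) (sB : B →+ B) (h : ∀ a, φ (sA a) = sB (φ a))
    (a : A) : φ (nOp n sA a) = nOp n sB (φ a) := by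
  simp [map_sum, map_iterate_of_comm φ sA sB h]

section exact

variable (n : ℕ) (i : A →+ B) (π : B →+ C) (hi : Function.Injective i)
  (hπ : Function.Surjective π) (hex : i.range = π.ker)
  (sA : A →+ A) (sB : B →+ B) (sC : C →+ C)
  (hsi : ∀ a, i (sA a) = sB (i a)) (hsπ : ∀ b, π (sB b) = sC (π b))
  (hs : ∀ b, sB^[n] b = b)

include hi hπ hex hsi hsπ hs

/-- `h` is multiplicative in short exact sequences. -/
theorem HerbDef.mid (hA : HerbDef n sA) (hC : HerbDef n sC) : HerbDef n sB :=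
  QDef.mid i π hi hπ hex _ _ _ _ _ _ (map_dOp i sA sB hsi) (map_nOp n i sA sB hsi)
    (map_dOp π sB sC hsπ) (map_nOp n π sB sC hsπ) (dOp_nOp n sB hs) (nOp_dOp n sB hs) hA hC

theorem HerbDef.sub (hB : HerbDef n sB) (hC : HerbDef n sC) : HerbDef n sA :=
  QDef.sub i π hi hπ hex _ _ _ _ _ _ (map_dOp i sA sB hsi) (map_nOp n i sA sB hsi)
    (map_dOp π sB sC hsπ) (map_nOp n π sB sC hsπ) (dOp_nOp n sB hs) (nOp_dOp n sB hs) hB hC

theorem HerbDef.quot (hA : HerbDef n sA) (hB : HerbDef n sB) : HerbDef n sC :=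
  QDef.quot i π hi hπ hex _ _ _ _ _ _ (map_dOp i sA sB hsi) (map_nOp n i sA sB hsi)
    (map_dOp π sB sC hsπ) (map_nOp n π sB sC hsπ) (dOp_nOp n sB hs) (nOp_dOp n sB hs) hA hB

theorem herb_mid (hA : HerbDef n sA) (hC : HerbDef n sC) :
    herb n sB = herb n sA * herb n sC :=
  q_mid i π hi hπ hex _ _ _ _ _ _ (map_dOp i sA sB hsi) (map_nOp n i sA sB hsi)
    (map_dOp π sB sC hsπ) (map_nOp n π sB sC hsπ) (dOp_nOp n sB hs) (nOp_dOp n sB hs) hA hC

end exact

/-- `h(finite) = 1`. -/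
theorem herb_of_finite [Finite A] (n : ℕ) (s : A →+ A) (hs : ∀ a, s^[n] a = a) :
    HerbDef n s ∧ herb n s = 1 :=
  ⟨QDef.of_finite _ _, q_of_finite _ _ (dOp_nOp n s hs) (nOp_dOp n s hs)⟩

/-- Invariance under equivariant isomorphisms. -/
theorem herb_of_equiv (n : ℕ) (e : A ≃+ B) (sA : A →+ A) (sB : B →+ B)
    (h : ∀ a, e (sA a) = sB (e a)) :
    (HerbDef n sA ↔ HerbDef n sB) ∧ herb n sA = herb n sB :=
  ⟨QDef.of_equiv e _ _ _ _ (map_dOp e.toAddMonoidHom sA sB h) (map_nOp n e.toAddMonoidHom sA sB h),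
    q_of_equiv e _ _ _ _ (map_dOp e.toAddMonoidHom sA sB h) (map_nOp n e.toAddMonoidHom sA sB h)⟩

/-- A stable subgroup of finite index has the same Herbrand quotient. -/
theorem herb_of_finite_coker (n : ℕ) (i : A →+ B) (hi : Function.Injective i)
    (hfin : i.range.index ≠ 0) (sA : A →+ A) (sB : B →+ B) (h : ∀ a, i (sA a) = sB (i a))
    (hs : ∀ b, sB^[n] b = b) :
    (HerbDef n sA ↔ HerbDef n sB) ∧ (HerbDef n sB → herb n sA = herb n sB) :=
  q_of_finite_coker i hi hfin _ _ _ _ (map_dOp i sA sB h) (map_nOp n i sA sB h)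
    (dOp_nOp n sB hs) (nOp_dOp n sB hs)

/-- Dividing by a finite stable subgroup does not change the Herbrand quotient. -/
theorem herb_of_finite_ker (n : ℕ) (π : A →+ B) (hπ : Function.Surjective π)
    (hfin : Finite π.ker) (sA : A →+ A) (sB : B →+ B) (h : ∀ a, π (sA a) = sB (π a))
    (hs : ∀ a, sA^[n] a = a) :
    (HerbDef n sA ↔ HerbDef n sB) ∧ (HerbDef n sA → herb n sA = herb n sB) :=
  q_of_finite_ker π hπ hfin _ _ _ _ (map_dOp π sA sB h) (map_nOp n π sA sB h)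
    (dOp_nOp n sA hs) (nOp_dOp n sA hs)

/-- `h(ℤ) = n` for the trivial action. -/
theorem herb_int (n : ℕ) (hn : 0 < n) :
    HerbDef n (AddMonoidHom.id ℤ) ∧ herb n (AddMonoidHom.id ℤ) = n := by
  rw [HerbDef_id, herb_id]
  exact phi_int n hn

/-- `Ĥ⁰`: if `i : A₀ → A` identifies `A₀` with the invariants and `Nm : A → A₀` is the norm then
`ind D N = [A₀ : Nm A]`. -/
theorem ind_dOp_nOp_eq_index {A₀ : Type*} [AddCommGroup A₀] (n : ℕ) (s : A →+ A)
    (i : A₀ →+ A) (hi : Function.Injective i) (hr : i.range = (dOp s).ker)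
    (Nm : A →+ A₀) (hN : ∀ a, i (Nm a) = nOp n s a) :
    ind (dOp s) (nOp n s) = Nm.range.index := by
  have h1 : (nOp n s).range = Nm.range.map i := by
    ext a
    simp only [AddMonoidHom.mem_range, AddSubgroup.mem_map]
    constructor
    · rintro ⟨b, rfl⟩
      exact ⟨Nm b, ⟨b, rfl⟩, hN b⟩
    · rintro ⟨_, ⟨b, rfl⟩, rfl⟩
      exact ⟨b, (hN b).symm⟩
  have h2 : (dOp s).ker = (⊤ : AddSubgroup A₀).map i := by
    rw [← hr, AddMonoidHom.range_eq_map]
  unfold ind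
  rw [h1, h2, AddSubgroup.relIndex_map_map_of_injective _ _ hi, AddSubgroup.relIndex_top_right]

/-- `H¹ = 0` (Hilbert 90 form). -/
theorem ind_nOp_dOp_eq_one_iff (n : ℕ) (s : A →+ A) :
    ind (nOp n s) (dOp s) = 1 ↔ ∀ a, nOp n s a = 0 → ∃ b, a = s b - b := by
  rw [ind_eq_one_iff]
  constructor
  · intro h a ha
    obtain ⟨b, hb⟩ := h (AddMonoidHom.mem_ker.2 ha)
    exact ⟨b, by rw [← hb, dOp_apply]⟩
  · intro h a ha
    obtain ⟨b, hb⟩ := h a (AddMonoidHom.mem_ker.1 ha)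
    exact ⟨b, by rw [hb, dOp_apply]⟩

/-- If `H¹ = 0` then `h = [A₀ : Nm A]`. -/
theorem herb_eq_index_of_h1 {A₀ : Type*} [AddCommGroup A₀] (n : ℕ) (s : A →+ A)
    (i : A₀ →+ A) (hi : Function.Injective i) (hr : i.range = (dOp s).ker)
    (Nm : A →+ A₀) (hN : ∀ a, i (Nm a) = nOp n s a)
    (h90 : ∀ a, nOp n s a = 0 → ∃ b, a = s b - b) :
    herb n s = Nm.range.index := by
  unfold herb q
  rw [ind_dOp_nOp_eq_index n s i hi hr Nm hN, (ind_nOp_dOp_eq_one_iff n s).2 h90]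
  simp

/-- Tate's lemma for finitely generated groups:
`h(A)^(p-1) * p^(rank A) = p^(p * rank A^s)`. -/
theorem tate_lemma_fg [AddGroup.FG A] (p : ℕ) (hp : p.Prime) (s : A →+ A)
    (hs : ∀ a, s^[p] a = a) :
    HerbDef p s ∧
    herb p s ^ (p - 1) * (p : ℚ) ^ Module.finrank ℤ A
      = (p : ℚ) ^ (p * Module.finrank ℤ (dOp s).ker) := by
  have : Module.Finite ℤ A := Module.Finite.iff_addGroup_fg.2 inferInstance
  have : Module.Finite ℤ (AddSubgroup.toIntSubmodule (dOp s).ker) :=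
    Module.Finite.of_fg (IsNoetherian.noetherian _)
  have : AddGroup.FG (dOp s).ker :=
    Module.Finite.iff_addGroup_fg.1
      (inferInstanceAs (Module.Finite ℤ (AddSubgroup.toIntSubmodule (dOp s).ker)))
  obtain ⟨hA, hphiA⟩ := phi_of_fg (A := A) p hp.pos
  obtain ⟨-, hphiK⟩ := phi_of_fg (A := (dOp s).ker) p hp.pos
  obtain ⟨-, hH, hT⟩ := tate_lemma p hp s hs hA
  refine ⟨hH, ?_⟩
  have hp0 : (p : ℚ) ≠ 0 := Nat.cast_ne_zero.2 hp.ne_zero
  rw [hT, hphiA, hphiK, ← pow_mul, mul_comm (Module.finrank ℤ (dOp s).ker) p]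
  exact div_mul_cancel₀ _ (pow_ne_zero _ hp0)

/-- Extraction of `h` from Tate's lemma. -/
theorem herb_eq_of_pow (p : ℕ) (hp : p.Prime) (s : A →+ A) (h : HerbDef p s) (x : ℚ) (hx : 0 < x)
    (hpow : herb p s ^ (p - 1) = x ^ (p - 1)) : herb p s = x := by
  have h0 : 0 < herb p s := QDef.q_pos h
  have hp1 : p - 1 ≠ 0 := by have := hp.two_le; omega
  exact (pow_left_inj₀ h0.le hx.le hp1).1 hpow

end Fermat.Agent.S55.Cyc
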