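/-
S55 / block CYC: from a cyclic group action to the operator formalism.
-/
import Fermat.Agent.S55.Cyc.Herb

set_option autoImplicit false

namespace Fermat.Agent.S55.Cyc

variable {G : Type*} [Group G] (A : Type*) [AddCommGroup A] [DistribMulAction G A]

/-- The operator `a ↦ g • a`. -/
def actOp (g : G) : A →+ A := DistribSMul.toAddMonoidHom A g

variable {A}

@[simp] theorem actOp_apply (g : G) (a : A) : actOp A g a = g • a := rfl

theorem actOp_iterate (g : G) (k : ℕ) (a : A) : (actOp A g)^[k] a = g ^ k • a := by
  induction k with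
  | zero => simp
  | succ k ih => rw [Function.iterate_succ_apply', ih, actOp_apply, pow_succ', mul_smul]

theorem actOp_iterate_eq (g : G) (n : ℕ) (hg : g ^ n = 1) (a : A) : (actOp A g)^[n] a = a := by
  rw [actOp_iterate, hg, one_smul]

/-- `ker (g - 1)` is the group of invariants when `g` generates `G`. -/
theorem mem_ker_dOp_actOp (g : G) (hgen : ∀ x : G, x ∈ Subgroup.zpowers g) (a : A) :
    a ∈ (dOp (actOp A g)).ker ↔ ∀ x : G, x • a = a := by
  rw [AddMonoidHom.mem_ker, dOp_apply, actOp_apply, sub_eq_zero]
  constructor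
  · intro h x
    have hg : g ∈ MulAction.stabilizer G a := h
    have hle : Subgroup.zpowers g ≤ MulAction.stabilizer G a := by
      rw [Subgroup.zpowers_le]; exact hg
    exact hle (hgen x)
  · intro h
    exact h g

/-- `1 + g + ... + g^(n-1)` is the norm when `g` generates `G` of order `n`. -/
theorem nOp_actOp [Fintype G] (g : G) (hgen : ∀ x : G, x ∈ Subgroup.zpowers g) (a : A) :
    nOp (Fintype.card G) (actOp A g) a = ∑ x : G, x • a := by
  classical
  rw [nOp_apply]
  simp only [actOp_iterate]
  have hcard : Fintype.card G = orderOf g := by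
    rw [← Nat.card_eq_fintype_card]
    exact (orderOf_eq_card_of_forall_mem_zpowers hgen).symm
  rw [← IsCyclic.image_range_card hgen, Finset.sum_image, Nat.card_eq_fintype_card]
  intro i hi j hj hij
  rw [Nat.card_eq_fintype_card, hcard] at hi hj
  exact pow_injOn_Iio_orderOf (by simpa using hi) (by simpa using hj) hij

theorem action_range_dOp_le [Finite G] (g g' : G) (hgen : ∀ x : G, x ∈ Subgroup.zpowers g) :
    (dOp (actOp A g')).range ≤ (dOp (actOp A g)).range := by
  have hpow : ∀ (k : ℕ) (a : A), g ^ k • a - a ∈ (dOp (actOp A g)).range := by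
    intro k a
    induction k with
    | zero => simp
    | succ k ih =>
      have h1 : g ^ (k + 1) • a - a = dOp (actOp A g) (g ^ k • a) + (g ^ k • a - a) := by
        rw [dOp_apply, actOp_apply, pow_succ', mul_smul]; abel
      rw [h1]
      exact add_mem ⟨_, rfl⟩ ih
  rintro _ ⟨a, rfl⟩
  have hmem : g' ∈ Submonoid.powers g := by
    rw [mem_powers_iff_mem_zpowers]; exact hgen g'
  obtain ⟨k, rfl⟩ := hmem
  rw [dOp_apply, actOp_apply]
  exact hpow k a

/-- The Herbrand quotient does not depend on the generator (both indices). -/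
theorem ind_actOp_generator [Finite G] (g g' : G) (hgen : ∀ x : G, x ∈ Subgroup.zpowers g)
    (hgen' : ∀ x : G, x ∈ Subgroup.zpowers g') :
    ind (dOp (actOp A g)) (nOp (Nat.card G) (actOp A g))
      = ind (dOp (actOp A g')) (nOp (Nat.card G) (actOp A g')) ∧
    ind (nOp (Nat.card G) (actOp A g)) (dOp (actOp A g))
      = ind (nOp (Nat.card G) (actOp A g')) (dOp (actOp A g')) := by
  have hN : nOp (Nat.card G) (actOp A g) = nOp (Nat.card G) (actOp A g') := by
    have := Fintype.ofFinite G
    ext a
    rw [Nat.card_eq_fintype_card, nOp_actOp g hgen, nOp_actOp g' hgen']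
  have hK : (dOp (actOp A g)).ker = (dOp (actOp A g')).ker := by
    ext a
    rw [mem_ker_dOp_actOp g hgen, mem_ker_dOp_actOp g' hgen']
  have hR : (dOp (actOp A g)).range = (dOp (actOp A g')).range :=
    le_antisymm (action_range_dOp_le g' g hgen') (action_range_dOp_le g g' hgen)
  unfold ind
  rw [hN, hK, hR]
  exact ⟨rfl, rfl⟩

end Fermat.Agent.S55.Cyc
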