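/-
S55 / block CYC: the abstract local norm index theorem.

`L/K` cyclic of prime degree `p`, `v : Lˣ → ℤ` a surjective Galois invariant homomorphism with kernel
`U_L`, `U_K = U_L ∩ Kˣ`.  If `phi(U_L) = phi(U_K)^p` then `h(U_L) = 1`, `[Kˣ : N Lˣ] = p`, and in the
unramified case every element of `U_K` is the norm of an element of `U_L`.
-/
import Fermat.Agent.S55.Cyc.Herb
import Fermat.Agent.S55.NIT.FI.ModuleCore
import Fermat.Agent.S14.Thaine.Hilbert90

set_option autoImplicit false

namespace Fermat.Agent.S55.Cyc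

open NIT.FI

section mul

variable (U : Type*) [CommGroup U] (p : ℕ)

theorem mulOp_additive : mulOp (Additive U) p = MonoidHom.toAdditive (powMonoidHom p : U →* U) := rfl

theorem index_range_mulOp_additive :
    (mulOp (Additive U) p).range.index = (powMonoidHom p : U →* U).range.index := by
  rw [← Subgroup.index_toAddSubgroup]
  rfl

theorem card_ker_mulOp_additive :
    Nat.card (mulOp (Additive U) p).ker = Nat.card (powMonoidHom p : U →* U).ker := rfl

theorem phiDef_additive_iff : PhiDef (Additive U) p ↔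
    (powMonoidHom p : U →* U).range.index ≠ 0 ∧ Nat.card (powMonoidHom p : U →* U).ker ≠ 0 := by
  rw [phiDef_iff, index_range_mulOp_additive, card_ker_mulOp_additive]

theorem phi_additive : phi (Additive U) p =
    ((powMonoidHom p : U →* U).range.index : ℚ) / (Nat.card (powMonoidHom p : U →* U).ker : ℚ) := by
  rw [phi_eq, index_range_mulOp_additive, card_ker_mulOp_additive]

end mul

section field

variable {K L : Type*} [Field K] [Field L] [Algebra K L]

/-- `σ` acting on `Additive Lˣ`. -/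
def sigL (σ : L ≃ₐ[K] L) : Additive Lˣ →+ Additive Lˣ :=
  MonoidHom.toAdditive (Units.map (σ : L →* L))

variable (K L) in
/-- The inclusion `Kˣ → Lˣ`. -/
def inclKL : Additive Kˣ →+ Additive Lˣ :=
  MonoidHom.toAdditive (Units.map (algebraMap K L : K →* L))

variable (K L) in
/-- The norm `Lˣ → Kˣ`. -/
noncomputable def nrmLK : Additive Lˣ →+ Additive Kˣ :=
  MonoidHom.toAdditive (Units.map (Algebra.norm K : L →* K))

/-- the underlying element of `L` -/
def uval (a : Additive Lˣ) : L := ((Additive.toMul a : Lˣ) : L)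

theorem uval_injective : Function.Injective (uval (L := L)) := by
  intro a b h
  exact Additive.toMul.injective (Units.ext h)

@[simp] theorem uval_zero : uval (0 : Additive Lˣ) = 1 := rfl

@[simp] theorem uval_add (a b : Additive Lˣ) : uval (a + b) = uval a * uval b := rfl

theorem uval_ne_zero (a : Additive Lˣ) : uval a ≠ 0 := (Additive.toMul a : Lˣ).ne_zero

theorem uval_sub (a b : Additive Lˣ) : uval (a - b) = uval a / uval b := by
  show (((Additive.toMul a : Lˣ) / (Additive.toMul b : Lˣ) : Lˣ) : L) = _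
  rw [Units.val_div_eq_div_val]
  rfl

theorem uval_sum {ι : Type*} (t : Finset ι) (f : ι → Additive Lˣ) :
    uval (∑ i ∈ t, f i) = ∏ i ∈ t, uval (f i) := by
  classical
  induction t using Finset.induction_on with
  | empty => simp
  | insert i t hi ih => rw [Finset.sum_insert hi, Finset.prod_insert hi, uval_add, ih]

theorem uval_sigL (σ : L ≃ₐ[K] L) (a : Additive Lˣ) : uval (sigL σ a) = σ (uval a) := rfl

theorem uval_sigL_iterate (σ : L ≃ₐ[K] L) (i : ℕ) (a : Additive Lˣ) :
    uval ((sigL σ)^[i] a) = (σ ^ i) (uval a) := by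
  induction i with
  | zero => simp
  | succ i ih => rw [Function.iterate_succ_apply', uval_sigL, ih, pow_succ', AlgEquiv.mul_apply]

theorem uval_inclKL (x : Additive Kˣ) :
    uval (inclKL K L x) = algebraMap K L ((Additive.toMul x : Kˣ) : K) := rfl

theorem inclKL_injective : Function.Injective (inclKL K L) := by
  intro x y h
  have h1 : uval (inclKL K L x) = uval (inclKL K L y) := by rw [h]
  rw [uval_inclKL, uval_inclKL] at h1
  exact Additive.toMul.injective (Units.ext ((algebraMap K L).injective h1))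

theorem uval_inclKL_nrmLK (a : Additive Lˣ) :
    uval (inclKL K L (nrmLK K L a)) = algebraMap K L (Algebra.norm K (uval a)) := rfl

variable [FiniteDimensional K L] [IsGalois K L]
  (p : ℕ) (hdeg : Module.finrank K L = p)
  (σ : L ≃ₐ[K] L) (hσ : ∀ τ : L ≃ₐ[K] L, τ ∈ Subgroup.zpowers σ)

include hdeg hσ in
theorem sigL_iterate_eq (a : Additive Lˣ) : (sigL σ)^[p] a = a := by
  apply uval_injective
  rw [uval_sigL_iterate, ← Core.orderOf_eq p hdeg σ hσ, pow_orderOf_eq_one]
  rfl

include hdeg hσ in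
theorem inclKL_nrmLK (a : Additive Lˣ) : inclKL K L (nrmLK K L a) = nOp p (sigL σ) a := by
  apply uval_injective
  rw [uval_inclKL_nrmLK, nOp_apply, uval_sum, ← Core.prod_pow_eq_norm p hdeg σ hσ]
  exact Finset.prod_congr rfl fun i _ => (uval_sigL_iterate σ i a).symm

include hσ in
theorem range_inclKL : (inclKL K L).range = (dOp (sigL σ)).ker := by
  ext a
  rw [AddMonoidHom.mem_ker, dOp_apply, sub_eq_zero]
  constructor
  · rintro ⟨x, rfl⟩
    apply uval_injective
    rw [uval_sigL, uval_inclKL]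
    exact σ.commutes _
  · intro h
    have h1 : σ (uval a) = uval a := by rw [← uval_sigL, h]
    obtain ⟨x, hx⟩ := (Core.fixed_iff σ hσ _).mp h1
    have hx0 : x ≠ 0 := by
      rintro rfl
      rw [map_zero] at hx
      exact uval_ne_zero _ hx.symm
    exact ⟨Additive.ofMul (Units.mk0 x hx0), uval_injective hx⟩

include hdeg hσ in
/-- Hilbert 90. -/
theorem hilbert90_sigL (a : Additive Lˣ) (ha : nOp p (sigL σ) a = 0) :
    ∃ b, a = sigL σ b - b := by
  have h1 : Algebra.norm K (uval a) = 1 := by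
    apply (algebraMap K L).injective
    rw [← uval_inclKL_nrmLK, inclKL_nrmLK p hdeg σ hσ, ha, map_one]
    rfl
  obtain ⟨y, hy0, hy⟩ := S14.Thaine.exists_mul_eq_of_norm_eq_one hσ h1
  refine ⟨-Additive.ofMul (Units.mk0 y hy0), ?_⟩
  apply uval_injective
  rw [map_neg, neg_sub_neg, uval_sub, uval_sigL]
  show uval a = y / σ y
  rw [eq_div_iff (by simpa using hy0), hy]

include hdeg hσ in
/-- `h(Lˣ) = [Kˣ : N Lˣ]`. -/
theorem herb_sigL : herb p (sigL σ) = ((nrmLK K L).range.index : ℚ) :=
  herb_eq_index_of_h1 p (sigL σ) (inclKL K L) inclKL_injective (range_inclKL σ hσ) (nrmLK K L)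
    (inclKL_nrmLK p hdeg σ hσ) (hilbert90_sigL p hdeg σ hσ)

omit [FiniteDimensional K L] [IsGalois K L] in
theorem index_range_nrmLK :
    (nrmLK K L).range.index = (Units.map (Algebra.norm K : L →* K)).range.index := by
  rw [← Subgroup.index_toAddSubgroup]
  rfl

end field

section val

variable {K L : Type*} [Field K] [Field L] [Algebra K L]

variable (K) in
/-- `U_K = U_L ∩ Kˣ` for `U_L = ker v`. -/
def unitsK (v : Lˣ →* Multiplicative ℤ) : Subgroup Kˣ :=
  v.ker.comap (Units.map (algebraMap K L : K →* L))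

/-- The inclusion `U_L → Lˣ`. -/
def inclU (v : Lˣ →* Multiplicative ℤ) : Additive v.ker →+ Additive Lˣ :=
  MonoidHom.toAdditive v.ker.subtype

/-- `v` as an additive map. -/
def vAdd (v : Lˣ →* Multiplicative ℤ) : Additive Lˣ →+ ℤ := MonoidHom.toAdditiveLeft v

theorem inclU_injective (v : Lˣ →* Multiplicative ℤ) : Function.Injective (inclU v) := by
  intro a b h
  exact Additive.toMul.injective (Subtype.ext (Additive.toMul.injective.eq_iff.2 h))

theorem range_inclU (v : Lˣ →* Multiplicative ℤ) : (inclU v).range = (vAdd v).ker := by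
  ext a
  constructor
  · rintro ⟨x, rfl⟩
    have := (Additive.toMul x : v.ker).2
    rw [MonoidHom.mem_ker] at this
    rw [AddMonoidHom.mem_ker]
    show Multiplicative.toAdd (v ((Additive.toMul x : v.ker) : Lˣ)) = 0
    rw [this]
    rfl
  · intro h
    rw [AddMonoidHom.mem_ker] at h
    refine ⟨Additive.ofMul ⟨Additive.toMul a, ?_⟩, rfl⟩
    rw [MonoidHom.mem_ker]
    exact Multiplicative.toAdd.injective h

theorem vAdd_surjective (v : Lˣ →* Multiplicative ℤ) (hv : Function.Surjective v) :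
    Function.Surjective (vAdd v) := by
  intro n
  obtain ⟨x, hx⟩ := hv (Multiplicative.ofAdd n)
  exact ⟨Additive.ofMul x, by show Multiplicative.toAdd (v x) = n; rw [hx]; rfl⟩

variable [FiniteDimensional K L] [IsGalois K L]
  (p : ℕ) (hp : p.Prime) (hdeg : Module.finrank K L = p)
  (σ : L ≃ₐ[K] L) (hσ : ∀ τ : L ≃ₐ[K] L, τ ∈ Subgroup.zpowers σ)
  (v : Lˣ →* Multiplicative ℤ)
  (hvσ : ∀ x, v (Units.map (σ : L →* L) x) = v x)
  (hiL : (powMonoidHom p : v.ker →* v.ker).range.index ≠ 0)
  (hkL : Nat.card (powMonoidHom p : v.ker →* v.ker).ker ≠ 0)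
  (hphi : (powMonoidHom p : v.ker →* v.ker).range.index
        * Nat.card (powMonoidHom p : unitsK K v →* unitsK K v).ker ^ p
      = Nat.card (powMonoidHom p : v.ker →* v.ker).ker
        * (powMonoidHom p : unitsK K v →* unitsK K v).range.index ^ p)

include hp hdeg hσ hvσ hiL hkL hphi in
/-- The module `U_L` with its dictionary, and `h(U_L) = 1`. -/
theorem exists_units_data :
    ∃ s : Additive v.ker →+ Additive v.ker,
      (∀ a, s^[p] a = a) ∧ (∀ a, inclU v (s a) = sigL σ (inclU v a)) ∧
      HerbDef p s ∧ herb p s = 1 ∧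
      ind (dOp s) (nOp p s) =
        ((v.ker.map (Units.map (Algebra.norm K : L →* K))).relIndex (unitsK K v)) ∧
      (∀ a, nOp p s a = 0 ↔ Algebra.norm K (uval (inclU v a)) = 1) := by
  obtain ⟨s, D, N, hs, hD, hN, hsσ, ⟨e⟩, hcard, hN0⟩ :=
    Core.exists_data p hdeg σ hσ v.ker (unitsK K v)
      (fun y hy => by rw [MonoidHom.mem_ker] at *; rw [hvσ, hy]) (fun x => Iff.rfl)
  obtain rfl : D = dOp s := by ext a; simp [hD]
  obtain rfl : N = nOp p s := by ext a; simp [hN]
  have hU : PhiDef (Additive v.ker) p := (phiDef_additive_iff _ p).2 ⟨hiL, hkL⟩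
  obtain ⟨hK, hH, hT⟩ := tate_lemma p hp s hs hU
  obtain ⟨hKiff, hKphi⟩ := phi_of_equiv e p
  rw [hKphi, phi_additive, phi_additive] at hT
  have hK' := (phiDef_additive_iff _ p).1 (hKiff.1 hK)
  have hone : herb p s ^ (p - 1) = 1 ^ (p - 1) := by
    rw [hT, one_pow, div_pow, div_div_div_eq, div_eq_one_iff_eq]
    · have := congrArg (Nat.cast : ℕ → ℚ) hphi
      push_cast at this
      linarith
    · exact mul_ne_zero (pow_ne_zero _ (Nat.cast_ne_zero.2 hK'.2)) (Nat.cast_ne_zero.2 hiL)
  refine ⟨s, hs, fun a => uval_injective (hsσ a), hH, herb_eq_of_pow p hp s hH 1 one_pos hone,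
    hcard, hN0⟩

include hp hdeg hσ hvσ hiL hkL hphi in
/-- **Local norm index**: `[Kˣ : N Lˣ] = p`. -/
theorem norm_index (hv : Function.Surjective v) :
    (Units.map (Algebra.norm K : L →* K)).range.index = p := by
  obtain ⟨s, hs, hsi, hH, h1, -, -⟩ := exists_units_data p hp hdeg σ hσ v hvσ hiL hkL hphi
  obtain ⟨hZ, hZ'⟩ := herb_int p hp.pos
  have hπ : ∀ b, vAdd v (sigL σ b) = AddMonoidHom.id ℤ (vAdd v b) := by
    intro b
    show Multiplicative.toAdd (v (Units.map (σ : L →* L) (Additive.toMul b))) = _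
    rw [hvσ]
    rfl
  have := herb_mid p (inclU v) (vAdd v) (inclU_injective v) (vAdd_surjective v hv) (range_inclU v)
    s (sigL σ) (AddMonoidHom.id ℤ) hsi hπ (sigL_iterate_eq p hdeg σ hσ) hH hZ
  rw [h1, hZ', one_mul, herb_sigL p hdeg σ hσ, index_range_nrmLK] at this
  exact_mod_cast this

include hp hdeg hσ hvσ hiL hkL hphi in
/-- **Unramified case**: every unit of `K` is the norm of a unit of `L`. -/
theorem unit_norm_of_unramified
    (hπ : ∃ π : Kˣ, v (Units.map (algebraMap K L : K →* L) π) = Multiplicative.ofAdd 1)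
    (u : Kˣ) (hu : u ∈ unitsK K v) :
    ∃ y ∈ v.ker, Units.map (Algebra.norm K : L →* K) y = u := by
  obtain ⟨s, hs, hsi, hH, h1, hind, hN0⟩ := exists_units_data p hp hdeg σ hσ v hvσ hiL hkL hphi
  obtain ⟨π, hπ⟩ := hπ
  -- `H¹(U_L) = 0`
  have hH1 : ind (nOp p s) (dOp s) = 1 := by
    rw [ind_nOp_dOp_eq_one_iff]
    intro a ha
    obtain ⟨y, hy0, hy⟩ := S14.Thaine.exists_mul_eq_of_norm_eq_one hσ ((hN0 a).1 ha)
    set π' : Lˣ := Units.map (algebraMap K L : K →* L) π with hπ'
    set k : ℤ := Multiplicative.toAdd (v (Units.mk0 y hy0)) with hk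
    have hσπ : Units.map (σ : L →* L) π' = π' := by
      apply Units.ext
      exact σ.commutes _
    have hmem : (Units.mk0 y hy0)⁻¹ * π' ^ k ∈ v.ker := by
      rw [MonoidHom.mem_ker, map_mul, map_inv, map_zpow, hπ]
      apply Multiplicative.toAdd.injective
      simp [hk]
    refine ⟨Additive.ofMul ⟨_, hmem⟩, ?_⟩
    apply inclU_injective v
    rw [map_sub, hsi]
    apply Additive.toMul.injective
    show ((Additive.toMul a : v.ker) : Lˣ) =
      Units.map (σ : L →* L) ((Units.mk0 y hy0)⁻¹ * π' ^ k) / ((Units.mk0 y hy0)⁻¹ * π' ^ k)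
    rw [map_mul, map_zpow, hσπ, map_inv, mul_div_mul_right_eq_div, inv_div_inv]
    apply Units.ext
    rw [Units.val_div_eq_div_val]
    show uval (inclU v a) = y / σ y
    rw [eq_div_iff (by simpa using hy0), hy]
  have hH0 : ind (dOp s) (nOp p s) = 1 := by
    unfold herb q at h1
    rw [hH1, Nat.cast_one, div_one] at h1
    exact_mod_cast h1
  rw [hind, Subgroup.relIndex_eq_one] at hH0
  obtain ⟨y, hy, hyu⟩ := hH0 hu
  exact ⟨y, hy, hyu⟩

end val

end Fermat.Agent.S55.Cyc
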